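/-
S38 (row 37, the GENERAL form of Ribet's level lowering; needed by S59-LL for `p = 3, 5`):
wiring (cluster L, helper37).  Plan: `NOTES/plan/L_S38.md`.

The frozen statement S38 differs from S43 in four ways: the curve is any semistable model `W`
(not a Frey curve), `p` is any odd prime (`p = 3` included), `q` is any prime `≠ p` (`q = 2`
included), and the model `W` is kept, so the congruence is needed at every good prime.  The proof
is the same: Tate package mod `p` (proved), congruence recovery (proved, general), non-Eisenstein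
(proved, general), Mazur's principle at `q` from BAD_q (three leaves, per-level form), PIVOT
(general form `Stmt_PivotW`) and COMPLETE.

`result_of_leaves :
   Stmt_FrobToricGen → Stmt_CompEisGen → Stmt_OldGen → Stmt_PivotW → Stmt_Complete → <frozen S38>`.
-/
import Fermat.Agent.S43.BadQAt
import Fermat.Agent.S38.Complete.Defs

set_option autoImplicit false
set_option synthInstance.maxHeartbeats 400000
set_option maxHeartbeats 1000000

noncomputable section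

open AlgebraicCurve ModularCurve
open WeierstrassCurve WeierstrassCurve.Affine WeierstrassCurve.Affine.Point
open scoped WeierstrassCurve.Affine

namespace Fermat.Agent.S38

open Fermat.Agent.BAD Fermat.Agent.S44 Fermat.Agent.L Fermat.Agent.S43 Fermat.Agent.S43.BadQ

/-- The three leaves of BAD_q in the generality of S38: `p` odd, `q ≠ p` any prime, squarefree
level. -/
def Stmt_FrobToricGen : Prop :=
  ∀ (p : ℕ), p.Prime → p ≠ 2 →
    ∀ (q M : ℕ) (a b : ℤ) (hab : a * q + b * M = 1) (hq : q.Prime) [NeZero (M * q)],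
    q ≠ p → Squarefree (M * q) →
    ∀ A : ValuationSubring (AlgebraicClosure ℚ), A.LiesOverPrime q →
      FrobToricAt (-1) p q M a b hab hq A

def Stmt_CompEisGen : Prop :=
  ∀ (p : ℕ), p.Prime → p ≠ 2 → ∀ (N : ℕ) [NeZero N] (q : ℕ), q.Prime → q ≠ p →
    q ∣ N → Squarefree N →
    ∀ A : ValuationSubring (AlgebraicClosure ℚ), A.LiesOverPrime q → CompEisAt p N A

def Stmt_OldGen : Prop :=
  ∀ (p : ℕ), p.Prime → p ≠ 2 → ∀ (N : ℕ) [NeZero N] (q : ℕ), q.Prime → q ≠ p →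
    q ∣ N → Squarefree N →
    ∀ A : ValuationSubring (AlgebraicClosure ℚ), A.LiesOverPrime q → OldAt p N q A

/-- **BAD_q for S38**: `p` odd, `q ≠ p`, squarefree level. -/
def Stmt_BadQsf : Prop :=
  ∀ (p : ℕ), p.Prime → p ≠ 2 → ∀ (N : ℕ) [NeZero N] (q : ℕ), q.Prime → q ≠ p →
    q ∣ N → Squarefree N →
    ∀ A : ValuationSubring (AlgebraicClosure ℚ), A.LiesOverPrime q →
      (jzModule N p).HasToricPartAt N q A

theorem badQsf_of_at (hF : Stmt_FrobToricGen) (hC : Stmt_CompEisGen) (hO : Stmt_OldGen) :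
    Stmt_BadQsf := by
  intro p hp hp2 N _ q hq hqp hqN hsq A hA
  obtain ⟨M, rfl⟩ : ∃ M, N = M * q := ⟨N / q, (Nat.div_mul_cancel hqN).symm⟩
  have hqM : ¬ q ∣ M := by
    rintro ⟨k, rfl⟩
    exact hq.not_isUnit (hsq q ⟨k, by ring⟩)
  have hcop : IsCoprime (q : ℤ) (M : ℤ) :=
    Nat.isCoprime_iff_coprime.2 ((Nat.Prime.coprime_iff_not_dvd hq).2 hqM)
  obtain ⟨a, b, hab⟩ := hcop
  exact hasToricAt_of q M a b hab hq p A Fermat.Agent.S43.H88.stmt_WHecke (Or.inr rfl)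
    (hF p hp hp2 q M a b hab hq hqp hsq A hA) (hC p hp hp2 (M * q) q hq hqp hqN hsq A hA)
    (hO p hp hp2 (M * q) q hq hqp hqN hsq A hA)

/-- The statements of S43 with `p ≥ 5` restricted... are special cases. -/
theorem frobToricOdd_of_gen (h : Stmt_FrobToricGen) : Stmt_FrobToricOdd :=
  fun p hp hp5 q M a b hab hq _ _ hqp hsq A hA =>
    h p hp (by omega) q M a b hab hq hqp hsq A hA

/-- **PIVOT, general form** (item 66): the exceptional case for a semistable model `W`.  If all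
Frobenius elements at a place over `q` act on `E[p]` through one scalar (this forces
`q ≡ 1 mod p`), the level can still be lowered at `q`.  The congruence is assumed outside a finite
set `S` only, and it is obtained outside a finite set (`LowerConcl`). -/
def Stmt_PivotW : Prop :=
  ∀ (p : ℕ), p.Prime → p ≠ 2 → ∀ (W : WeierstrassCurve ℤ), W.Δ ≠ 0 → W.IsSemistableModel →
    GaloisRepIsIrreducible (K := AlgebraicClosure ℚ) ℚ (W.map (Int.castRingHom ℚ)).toAffine p →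
    ∀ (N q : ℕ), Squarefree N → q.Prime → q ≠ p → q ∣ N →
    (∀ A : ValuationSubring (AlgebraicClosure ℚ), A.LiesOverPrime q →
      ∀ σ ∈ A.inertiaSubgroupIn ℚ, ∀ v : Tors (W.map (Int.castRingHom ℚ)) p,
        galoisRepModuleEnd (S := ℚ) (K := AlgebraicClosure ℚ)
          (W.map (Int.castRingHom ℚ)).toAffine p σ v = v) →
    ∀ (f : CuspForm (CongruenceSubgroup.Gamma0 N) 2) (𝔪 : Ideal (integralClosure ℤ ℂ))
      (S : Finset ℕ),
    f.IsNormalizedEigenform → 𝔪.IsMaximal → (p : integralClosure ℤ ℂ) ∈ 𝔪 →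
    (∀ ℓ : ℕ, ℓ.Prime → ℓ ∉ S → W.IsGoodPrimeFor ℓ → ¬ ℓ ∣ N → ℓ ≠ p →
      ∃ a : integralClosure ℤ ℂ, (a : ℂ) = ModularFormClass.qCoeff f ℓ ∧
        a - ((W.apOfModel ℓ : ℤ) : integralClosure ℤ ℂ) ∈ 𝔪) →
    ∀ A : ValuationSubring (AlgebraicClosure ℚ), A.LiesOverPrime q →
    (∃ c : ZMod p, ∀ σ : GQ, A.IsFrobeniusAt σ q →
      ∀ v : Tors (W.map (Int.castRingHom ℚ)) p,
        galoisRepModuleEnd (S := ℚ) (K := AlgebraicClosure ℚ)
          (W.map (Int.castRingHom ℚ)).toAffine p σ v = c • v) →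
    LowerConcl p N q W

theorem isIntegralModelOf_map (W : WeierstrassCurve ℤ) :
    W.IsIntegralModelOf (W.map (Int.castRingHom ℚ)) :=
  ⟨1, one_smul _ _⟩

/-- **The core of S38 from the packages.** -/
theorem lowerConcl_gen (h2 : Stmt_BadQsf) (h3 : Stmt_PivotW)
    (p : ℕ) (hp : p.Prime) (hp2 : p ≠ 2) (W : WeierstrassCurve ℤ) (hΔ : W.Δ ≠ 0)
    (hW : W.IsSemistableModel)
    (hirr : GaloisRepIsIrreducible (K := AlgebraicClosure ℚ) ℚ
      (W.map (Int.castRingHom ℚ)).toAffine p)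
    (N q : ℕ) (hN : Squarefree N) (hq : q.Prime) (hqp : q ≠ p) (hqN : q ∣ N)
    (hunr : ∀ A : ValuationSubring (AlgebraicClosure ℚ), A.LiesOverPrime q →
      ∀ σ ∈ A.inertiaSubgroupIn ℚ, ∀ v : Tors (W.map (Int.castRingHom ℚ)) p,
        galoisRepModuleEnd (S := ℚ) (K := AlgebraicClosure ℚ)
          (W.map (Int.castRingHom ℚ)).toAffine p σ v = v)
    (f : CuspForm (CongruenceSubgroup.Gamma0 N) 2)
    (𝔪 : Ideal (integralClosure ℤ ℂ)) (hf : f.IsNormalizedEigenform)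
    (h𝔪 : 𝔪.IsMaximal) (hp𝔪 : (p : integralClosure ℤ ℂ) ∈ 𝔪)
    (hcong : ∀ ℓ : ℕ, ℓ.Prime → W.IsGoodPrimeFor ℓ → ¬ ℓ ∣ N → ℓ ≠ p →
      ∃ a : integralClosure ℤ ℂ, (a : ℂ) = ModularFormClass.qCoeff f ℓ ∧
        a - ((W.apOfModel ℓ : ℤ) : integralClosure ℤ ℂ) ∈ 𝔪) :
    LowerConcl p N q W := by
  have hNpos : 0 < N := Nat.pos_of_ne_zero hN.ne_zero
  have : NeZero N := ⟨hN.ne_zero⟩
  have hWE := isIntegralModelOf_map W
  have : (W.map (Int.castRingHom ℚ)).IsElliptic :=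
    ⟨isUnit_iff_ne_zero.mpr (by
      rw [WeierstrassCurve.map_Δ]
      simpa using hΔ)⟩
  obtain ⟨A, hAq⟩ := stmt_PlaceOver q hq
  by_cases hexc : ∃ c : ZMod p, ∀ σ : GQ, A.IsFrobeniusAt σ q →
      ∀ v : Tors (W.map (Int.castRingHom ℚ)) p,
        galoisRepModuleEnd (S := ℚ) (K := AlgebraicClosure ℚ)
          (W.map (Int.castRingHom ℚ)).toAffine p σ v = c • v
  · exact h3 p hp hp2 W hΔ hW hirr N q hN hq hqp hqN hunr f 𝔪 ∅ hf h𝔪 hp𝔪
      (fun ℓ hℓ _ hg hℓN hℓp => hcong ℓ hℓ hg hℓN hℓp) A hAq hexc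
  · obtain ⟨hcont, hES, hsupp⟩ := stmt_TateModP p hp hp2 N
    set S : Finset ℕ := W.Δ.natAbs.primeFactors with hS
    have hgood : ∀ ℓ : ℕ, ℓ.Prime → ℓ ∉ S → W.IsGoodPrimeFor ℓ := fun ℓ hℓ h =>
      prime_not_mem_of_good hℓ hΔ h
    obtain ⟨x, hx0, hx⟩ := hsupp f 𝔪 S (fun ℓ => W.apOfModel ℓ) hf h𝔪 hp𝔪
      (fun ℓ hℓ hℓS hℓN hℓp => hcong ℓ hℓ (hgood ℓ hℓ hℓS) hℓN hℓp)
    obtain ⟨ι, hinj, hequiv, hT⟩ := Fermat.Agent.L.H52.recovery p hp hp2 N hNpos
      (jzModule N p) hcont hES (W.map (Int.castRingHom ℚ)) W hWE hirr S hgood x hx0 hx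
    have hNE : ∃ ℓ : ℕ, ℓ.Prime ∧ ℓ ∉ S ∧ ¬ ℓ ∣ N ∧ ℓ ≠ p ∧
        ((W.apOfModel ℓ : ℤ) : ZMod p) ≠ 1 + (ℓ : ZMod p) := by
      have h := Fermat.Agent.S41.H19.stmt_I3 (W.map (Int.castRingHom ℚ)) W hWE p N hp hNpos hirr
      by_contra hcon
      apply h
      intro ℓ hℓ hℓW hℓN hℓp
      by_contra hne
      refine hcon ⟨ℓ, hℓ, ?_, hℓN, hℓp, hne⟩
      intro hmem
      rw [hS, Nat.mem_primeFactors] at hmem
      exact hℓW (Int.natCast_dvd.mpr hmem.2.1)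
    have hrem := removesQ_of_toric hp hp2 (jzModule N p) N q A
      (h2 p hp hp2 N q hq hqp hqN hN A hAq)
    obtain ⟨g, 𝔪', hg, h𝔪', hp𝔪', hgc⟩ := hrem (Tors (W.map (Int.castRingHom ℚ)) p)
      (galoisRepModuleEnd (S := ℚ) (K := AlgebraicClosure ℚ)
        (W.map (Int.castRingHom ℚ)).toAffine p)
      ι S (fun ℓ => W.apOfModel ℓ)
      (fun W' hW' => hirr.2 W' (fun σ x hx => hW' σ x hx))
      (fun σ hσ v => hunr A hAq σ hσ v)
      hexc hinj (fun σ v => hequiv σ v) hT hNE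
    exact ⟨g, 𝔪', S, hg, h𝔪', hp𝔪', fun ℓ hℓ hℓS hℓN hℓp _ => hgc ℓ hℓ hℓS hℓN hℓp⟩

/-- `LowerConcl` and COMPLETE give residual modularity of level `N / q` for the model `W`. -/
theorem isResiduallyModular_of_lowerConcl (hK : Stmt_Complete)
    (p : ℕ) (hp : p.Prime) (W : WeierstrassCurve ℤ) (hΔ : W.Δ ≠ 0)
    (N q : ℕ) (hN : Squarefree N) (hq : q.Prime) (hqN : q ∣ N)
    (h : LowerConcl p N q W) : W.IsResiduallyModularOfLevel p (N / q) := by
  obtain ⟨g, 𝔪, S, hg, hmax, hp𝔪, hcong⟩ := h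
  have hNq : N / q * q = N := Nat.div_mul_cancel hqN
  have hpos : 0 < N / q :=
    Nat.div_pos (Nat.le_of_dvd (Nat.pos_of_ne_zero hN.ne_zero) hqN) hq.pos
  refine ⟨g, 𝔪, hg, hmax, hp𝔪, ?_⟩
  refine hK p hp W hΔ (N / q) hpos g 𝔪 (insert q S) hg hmax hp𝔪 ?_
  intro ℓ hℓ hℓS hgood hℓM hℓp
  have hℓq : ℓ ≠ q := fun h => hℓS (by rw [h]; exact Finset.mem_insert_self _ _)
  have hℓS' : ℓ ∉ S := fun h => hℓS (Finset.mem_insert_of_mem h)
  have hℓN : ¬ ℓ ∣ N := by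
    intro hd
    rw [← hNq] at hd
    rcases (Nat.Prime.dvd_mul hℓ).1 hd with h | h
    · exact hℓM h
    · exact hℓq ((Nat.prime_dvd_prime_iff_eq hℓ hq).1 h)
  exact hcong ℓ hℓ hℓS' hℓN hℓp hgood

/-- **S38 from BAD_q (squarefree levels), PIVOT (general form) and COMPLETE.**  The conclusion is
the frozen statement S38. -/
theorem result_of_badq (h2 : Stmt_BadQsf) (h3 : Stmt_PivotW) (hK : Stmt_Complete)
    (p : ℕ) [Fact p.Prime] (_hp2 : p ≠ 2) (W : WeierstrassCurve ℤ) (_hΔ : W.Δ ≠ 0)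
    (_hW : W.IsSemistableModel)
    (hcard₁ : Nat.card (Submodule.torsionBy ℤ
      ((W.map (Int.castRingHom ℚ))⁄(AlgebraicClosure ℚ)).Point p) = p ^ 2)
    (hker : GaloisFactorsThroughFiniteLevel
      (WeierstrassCurve.Affine.Point.galoisRepModuleEnd (K := AlgebraicClosure ℚ) ℚ
        (W.map (Int.castRingHom ℚ)) p))
    (_hirr : W.ModRepIsIrreducible p) (M q : ℕ) (hq : q.Prime) (hqp : q ≠ p)
    (hqM : q ∣ M) (_hq2 : ¬ q ^ 2 ∣ M) (hM : Squarefree M)
    (hunr : ((W.map (Int.castRingHom ℚ)).residualGaloisRepOf p hcard₁ hker).IsUnramifiedAt q)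
    (hres : W.IsResiduallyModularOfLevel p M) :
    W.IsResiduallyModularOfLevel p (M / q) := by
  have hp : p.Prime := Fact.out
  obtain ⟨f, 𝔪, hf, h𝔪, hp𝔪, hcong⟩ := hres
  refine isResiduallyModular_of_lowerConcl hK p hp W _hΔ M q hM hq hqM ?_
  refine lowerConcl_gen h2 h3 p hp _hp2 W _hΔ _hW _hirr M q hM hq hqp hqM ?_ f 𝔪 hf h𝔪 hp𝔪 hcong
  intro A hA σ hσ v
  have h1 := hunr A hA σ hσ
  have h2 : galoisRepModuleEnd (S := ℚ) (K := AlgebraicClosure ℚ)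
      (W.map (Int.castRingHom ℚ)).toAffine p σ = 1 := h1
  rw [h2]
  rfl

/-- **S38 from the leaves.** -/
theorem result_of_leaves (hF : Stmt_FrobToricGen) (hC : Stmt_CompEisGen) (hO : Stmt_OldGen)
    (h3 : Stmt_PivotW) (hK : Stmt_Complete)
    (p : ℕ) [Fact p.Prime] (_hp2 : p ≠ 2) (W : WeierstrassCurve ℤ) (_hΔ : W.Δ ≠ 0)
    (_hW : W.IsSemistableModel)
    (hcard₁ : Nat.card (Submodule.torsionBy ℤ
      ((W.map (Int.castRingHom ℚ))⁄(AlgebraicClosure ℚ)).Point p) = p ^ 2)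
    (hker : GaloisFactorsThroughFiniteLevel
      (WeierstrassCurve.Affine.Point.galoisRepModuleEnd (K := AlgebraicClosure ℚ) ℚ
        (W.map (Int.castRingHom ℚ)) p))
    (_hirr : W.ModRepIsIrreducible p) (M q : ℕ) (hq : q.Prime) (hqp : q ≠ p)
    (hqM : q ∣ M) (hq2 : ¬ q ^ 2 ∣ M) (hM : Squarefree M)
    (hunr : ((W.map (Int.castRingHom ℚ)).residualGaloisRepOf p hcard₁ hker).IsUnramifiedAt q)
    (hres : W.IsResiduallyModularOfLevel p M) :
    W.IsResiduallyModularOfLevel p (M / q) :=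
  result_of_badq (badQsf_of_at hF hC hO) h3 hK p _hp2 W _hΔ _hW hcard₁ hker _hirr M q hq hqp
    hqM hq2 hM hunr hres

end Fermat.Agent.S38
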