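/-
S38 (row 37, general form of Ribet's level lowering), S38-WIRE2 (helper75): the frozen S38 by
induction on the level, as helper76's `L.Pivot.H76.s43_of2` for the Frey form.

Inputs (all hypothesis-parametric):

* `S59.LL.Stmt_S39`       : the frozen type of S39 (remove `p ∥ N` when `p ∣ v_p(Δ)`; this covers
                            good reduction at `p`, where `v_p(Δ) = 0`);
* `S38.Stmt_BadQsf`       : BAD_q at squarefree levels (Mazur's principle at the primes which are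
                            not exceptional, through `H76.removesQ2_of_toric`);
* `P3.Stmt_PivotWCoreAll`   : PIVOT, `p ∤ N`, every unramified prime of the level exceptional
  (every odd `p`; `S38/P3/PivotDefs.lean`, the text of `H76.Stmt_PivotWCore` before `5 ≤ p`);
* `P3.Stmt_PivotWCoreSOAll` : PIVOT, `p ∥ N`, `E[p]` not peu ramifiée at `p`.

Already proved and plugged in: COMPLETE (`S38.H49.stmt_Complete`), stabilisation
(`S59.H61.stmt_Stab`), the Tate package mod `p`, recovery, non-Eisenstein.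

* `lowerConcl_nonexc` : Mazur's principle at a prime `q'` which is not exceptional (`IsExcW`);
* `lower_to_prime_to_q` : residually modular of a squarefree level `N`, `E[p]` unramified at `q`
   ⟹ residually modular of a level `N' ∣ N`, `q ∤ N'`;
* `raise_level` : residually modular of level `N'`, `N' ∣ L`, `L` squarefree ⟹ of level `L`;
* `s38_of_wire2 : Stmt_S39 → Stmt_BadQsf → Stmt_PivotWCore → Stmt_PivotWCoreSO → Stmt_S38`.
-/
import Fermat.Agent.S38.Wiring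
import Fermat.Agent.S38.Complete.H49_Complete
import Fermat.Agent.L.Pivot.H76_Wire2WDefs
import Fermat.Agent.S38.P3.PivotDefs
import Fermat.Agent.L.Pivot.H76_RemovesQ2
import Fermat.Agent.S59.H61_Stab
import Fermat.Agent.S59.LL.Defs

set_option autoImplicit false
set_option linter.style.haveILetI false
set_option synthInstance.maxHeartbeats 400000
set_option maxHeartbeats 1000000

noncomputable section

open AlgebraicCurve ModularCurve
open WeierstrassCurve WeierstrassCurve.Affine WeierstrassCurve.Affine.Point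
open scoped WeierstrassCurve.Affine

namespace Fermat.Agent.S38.H75

open Fermat.Agent.BAD Fermat.Agent.S44 Fermat.Agent.L Fermat.Agent.S43 Fermat.Agent.S43.BadQ
open Fermat.Agent.S38 Fermat.Agent.L.Pivot.H76

/-- **Mazur's principle at a prime which is not exceptional**, curve form. -/
theorem lowerConcl_nonexc (h2 : Stmt_BadQsf)
    (p : ℕ) (hp : p.Prime) (hp2 : p ≠ 2) (W : WeierstrassCurve ℤ) (hΔ : W.Δ ≠ 0)
    (hirr : GaloisRepIsIrreducible (K := AlgebraicClosure ℚ) ℚ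
      (W.map (Int.castRingHom ℚ)).toAffine p)
    (N q : ℕ) (hN : Squarefree N) (hq : q.Prime) (hqp : q ≠ p) (hqN : q ∣ N)
    (hunr : UnrW W p q) (hne : ¬ IsExcW W p q)
    (f : CuspForm (CongruenceSubgroup.Gamma0 N) 2)
    (𝔪 : Ideal (integralClosure ℤ ℂ)) (hf : f.IsNormalizedEigenform)
    (h𝔪 : 𝔪.IsMaximal) (hp𝔪 : (p : integralClosure ℤ ℂ) ∈ 𝔪)
    (hcong : ∀ ℓ : ℕ, ℓ.Prime → W.IsGoodPrimeFor ℓ → ¬ ℓ ∣ N → ℓ ≠ p →
      ∃ a : integralClosure ℤ ℂ, (a : ℂ) = ModularFormClass.qCoeff f ℓ ∧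
        a - ((W.apOfModel ℓ : ℤ) : integralClosure ℤ ℂ) ∈ 𝔪) :
    LowerConcl p N q W := by
  have hNpos : 0 < N := Nat.pos_of_ne_zero hN.ne_zero
  have : NeZero N := ⟨hN.ne_zero⟩
  have : Fact p.Prime := ⟨hp⟩
  have hWE := isIntegralModelOf_map W
  have : (W.map (Int.castRingHom ℚ)).IsElliptic :=
    ⟨isUnit_iff_ne_zero.mpr (by
      rw [WeierstrassCurve.map_Δ]
      simpa using hΔ)⟩
  obtain ⟨A, hAq⟩ := stmt_PlaceOver q hq
  have hnsc : ¬ ∃ ε : ZMod p, ε * ε = 1 ∧ ∀ σ : GQ, A.IsFrobeniusAt σ q →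
      ∀ v : Tors (W.map (Int.castRingHom ℚ)) p,
        galoisRepModuleEnd (S := ℚ) (K := AlgebraicClosure ℚ)
          (W.map (Int.castRingHom ℚ)).toAffine p σ v = ((q : ZMod p) * ε) • v := by
    rintro ⟨ε, hε, h⟩
    exact hne ⟨dvd_sub_one_of_scalar hWE hΔ hq hqp A hAq ε hε h, A, hAq, (q : ZMod p) * ε, h⟩
  obtain ⟨hcont, hES, hsupp⟩ := stmt_TateModP p hp hp2 N
  set S : Finset ℕ := W.Δ.natAbs.primeFactors with hS
  have hgood : ∀ ℓ : ℕ, ℓ.Prime → ℓ ∉ S → W.IsGoodPrimeFor ℓ := fun ℓ hℓ h =>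
    prime_not_mem_of_good hℓ hΔ h
  obtain ⟨x, hx0, hx⟩ := hsupp f 𝔪 S (fun ℓ => W.apOfModel ℓ) hf h𝔪 hp𝔪
    (fun ℓ hℓ hℓS hℓN hℓp => hcong ℓ hℓ (hgood ℓ hℓ hℓS) hℓN hℓp)
  obtain ⟨ι, hinj, hequiv, hT⟩ := Fermat.Agent.L.H52.recovery p hp hp2 N hNpos
    (jzModule N p) hcont hES (W.map (Int.castRingHom ℚ)) W hWE hirr S hgood x hx0 hx
  have hNE : ∃ ℓ : ℕ, ℓ.Prime ∧ ℓ ∉ S ∧ ¬ ℓ ∣ N ∧ ℓ ≠ p ∧
      ((W.apOfModel ℓ : ℤ) : ZMod p) ≠ 1 + (ℓ : ZMod p) := by
    have h := Fermat.Agent.S41.H19.stmt_I3 (W.map (Int.castRingHom ℚ)) W hWE p N hp hNpos hirr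
    by_contra hcon
    apply h
    intro ℓ hℓ hℓW hℓN hℓp
    by_contra hne'
    refine hcon ⟨ℓ, hℓ, ?_, hℓN, hℓp, hne'⟩
    intro hmem
    rw [hS, Nat.mem_primeFactors] at hmem
    exact hℓW (Int.natCast_dvd.mpr hmem.2.1)
  have hrem := removesQ2_of_toric hp hp2 (jzModule N p) N q A
    (h2 p hp hp2 N q hq hqp hqN hN A hAq)
  obtain ⟨g, 𝔪', hg, h𝔪', hp𝔪', hgc⟩ := hrem (Tors (W.map (Int.castRingHom ℚ)) p)
    (galoisRepModuleEnd (S := ℚ) (K := AlgebraicClosure ℚ)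
      (W.map (Int.castRingHom ℚ)).toAffine p)
    ι S (fun ℓ => W.apOfModel ℓ)
    (fun W' hW' => hirr.2 W' (fun σ x hx => hW' σ x hx))
    (fun σ hσ v => hunr A hAq σ hσ v)
    hnsc hinj (fun σ v => hequiv σ v) hT hNE
  exact ⟨g, 𝔪', S, hg, h𝔪', hp𝔪', fun ℓ hℓ hℓS hℓN hℓp _ => hgc ℓ hℓ hℓS hℓN hℓp⟩

/-- Good reduction at `p` is peu ramifiée at `p` (`v_p(Δ) = 0`). -/
theorem isPeuRamifieeAt_of_not_dvd (W : WeierstrassCurve ℤ) (p : ℕ)
    (h : ¬ (p : ℤ) ∣ W.Δ) : (W.map (Int.castRingHom ℚ)).IsPeuRamifieeAt p p := by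
  unfold WeierstrassCurve.IsPeuRamifieeAt
  rw [WeierstrassCurve.map_Δ]
  have h1 : padicValRat p ((Int.castRingHom ℚ) W.Δ) = 0 := by
    have h2 : ((Int.castRingHom ℚ) W.Δ) = ((W.Δ : ℤ) : ℚ) := rfl
    rw [h2, padicValRat.of_int]
    exact_mod_cast padicValInt.eq_zero_of_not_dvd h
  rw [h1]
  exact dvd_zero _

/-- **Lowering to a level prime to `q`** (induction on the level). -/
theorem lower_to_prime_to_q (h39 : Fermat.Agent.S59.LL.Stmt_S39) (hB : Stmt_BadQsf)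
    (hPV : Fermat.Agent.S38.P3.Stmt_PivotWCoreAll)
    (hSO : Fermat.Agent.S38.P3.Stmt_PivotWCoreSOAll)
    (p : ℕ) (hp : p.Prime) (hp2 : p ≠ 2) (W : WeierstrassCurve ℤ) (hΔ : W.Δ ≠ 0)
    (hW : W.IsSemistableModel) (hirr : W.ModRepIsIrreducible p)
    (q : ℕ) (hq : q.Prime) (hqp : q ≠ p) (hunr : UnrW W p q) :
    ∀ n : ℕ, ∀ N : ℕ, N ≤ n → Squarefree N → W.IsResiduallyModularOfLevel p N →
      ∃ N' : ℕ, N' ∣ N ∧ ¬ q ∣ N' ∧ W.IsResiduallyModularOfLevel p N' := by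
  intro n
  induction n with
  | zero =>
    intro N hN hsq _
    exact absurd (Nat.le_zero.mp hN) hsq.ne_zero
  | succ n ih =>
    intro N hNle hsq hres
    have hNpos : 0 < N := Nat.pos_of_ne_zero hsq.ne_zero
    by_cases hqN : q ∣ N
    swap
    · exact ⟨N, dvd_rfl, hqN, hres⟩
    -- a smaller level suffices
    have step : ∀ r : ℕ, r.Prime → r ∣ N → W.IsResiduallyModularOfLevel p (N / r) →
        ∃ N' : ℕ, N' ∣ N ∧ ¬ q ∣ N' ∧ W.IsResiduallyModularOfLevel p N' := by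
      intro r hr hrN hM
      have hdvd : N / r ∣ N := Nat.div_dvd_of_dvd hrN
      have hlt : N / r < N := Nat.div_lt_self hNpos hr.one_lt
      obtain ⟨N', hN'M, hqN', hN'⟩ := ih (N / r) (by omega) (hsq.squarefree_of_dvd hdvd) hM
      exact ⟨N', hN'M.trans hdvd, hqN', hN'⟩
    -- the conclusion of the core at a prime `r` gives the level `N / r`
    have ofLC : ∀ r : ℕ, r.Prime → r ∣ N → LowerConcl p N r W →
        W.IsResiduallyModularOfLevel p (N / r) := fun r hr hrN h =>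
      isResiduallyModular_of_lowerConcl Fermat.Agent.S38.H49.stmt_Complete p hp W hΔ N r hsq hr
        hrN h
    obtain ⟨f, 𝔪, hf, h𝔪, hp𝔪, hcong⟩ := hres
    have hres' : W.IsResiduallyModularOfLevel p N := ⟨f, 𝔪, hf, h𝔪, hp𝔪, hcong⟩
    by_cases hpeu : p ∣ N ∧ (W.map (Int.castRingHom ℚ)).IsPeuRamifieeAt p p
    · -- remove `p`
      obtain ⟨hpN, hfin⟩ := hpeu
      have hp2N : ¬ p ^ 2 ∣ N := fun h =>
        hp.not_isUnit (hsq p (by rwa [pow_two] at h))
      exact step p hp hpN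
        (h39 W hΔ hp hp2 (fun h => hW p hp h) hirr hfin hNpos hpN hp2N hres')
    · by_cases hall : ∀ q' : ℕ, q'.Prime → q' ≠ p → q' ∣ N → UnrW W p q' → IsExcW W p q'
      · -- PIVOT
        have hLC : LowerConcl p N q W := by
          by_cases hpN : p ∣ N
          · have hnpeu : ¬ (W.map (Int.castRingHom ℚ)).IsPeuRamifieeAt p p :=
              fun h => hpeu ⟨hpN, h⟩
            have hpΔ : (p : ℤ) ∣ W.Δ := by
              by_contra h
              exact hnpeu (isPeuRamifieeAt_of_not_dvd W p h)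
            exact hSO p hp hp2 W hΔ hW hirr N q hsq hpN hpΔ hnpeu hq hqp hqN hunr hall f 𝔪 ∅
              hf h𝔪 hp𝔪 (fun ℓ hℓ _ hg hℓN hℓp => hcong ℓ hℓ hg hℓN hℓp)
          · exact hPV p hp hp2 W hΔ hW hirr N q hsq hpN hq hqN hunr
              (fun q' hq' hq'N hu => hall q' hq' (fun h => hpN (h ▸ hq'N)) hq'N hu) f 𝔪 ∅
              hf h𝔪 hp𝔪 (fun ℓ hℓ _ hg hℓN hℓp => hcong ℓ hℓ hg hℓN hℓp)
        refine ⟨N / q, Nat.div_dvd_of_dvd hqN, ?_, ofLC q hq hqN hLC⟩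
        intro hqq
        obtain ⟨k, hk⟩ := hqq
        have h2 : q * q ∣ N := by
          have h3 : N = q * (N / q) := (Nat.mul_div_cancel' hqN).symm
          rw [h3, hk]
          exact ⟨k, by ring⟩
        exact hq.not_isUnit (hsq q h2)
      · -- Mazur's principle at a prime which is not exceptional
        push Not at hall
        obtain ⟨q', hq', hq'p, hq'N, hu', hne⟩ := hall
        exact step q' hq' hq'N (ofLC q' hq' hq'N
          (lowerConcl_nonexc hB p hp hp2 W hΔ hirr N q' hsq hq' hq'p hq'N hu' hne f 𝔪 hf h𝔪 hp𝔪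
            hcong))

/-- **Raising the level** (stabilisation): residually modular of level `N'`, `N' ∣ L`,
`L` squarefree  ⟹  residually modular of level `L`. -/
theorem raise_level (W : WeierstrassCurve ℤ) (p : ℕ) {N' L : ℕ} (hL : Squarefree L)
    (hdvd : N' ∣ L) (h : W.IsResiduallyModularOfLevel p N') :
    W.IsResiduallyModularOfLevel p L := by
  classical
  obtain ⟨k, rfl⟩ := hdvd
  obtain ⟨f, 𝔪, hf, h𝔪, hp𝔪, hcong⟩ := h
  have hk : Squarefree k := hL.squarefree_of_dvd (dvd_mul_left k N')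
  have hs : ∀ r ∈ k.primeFactors, r.Prime ∧ ¬ r ∣ N' := by
    intro r hr
    have hrp : r.Prime := Nat.prime_of_mem_primeFactors hr
    have hrk : r ∣ k := Nat.dvd_of_mem_primeFactors hr
    refine ⟨hrp, fun hrN => ?_⟩
    exact hrp.not_isUnit (hL r (mul_dvd_mul hrN hrk))
  have H := Fermat.Agent.S59.stab_finset Fermat.Agent.S59.H61.stmt_Stab k.primeFactors N' f hf hs
  rw [Nat.prod_primeFactors_of_squarefree hk] at H
  obtain ⟨g, hg, hgf⟩ := H
  refine ⟨g, 𝔪, hg, h𝔪, hp𝔪, fun ℓ hℓ hgood hℓL hℓp => ?_⟩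
  have hℓN' : ¬ ℓ ∣ N' := fun h => hℓL (h.mul_right k)
  have hℓk : ℓ ∉ k.primeFactors := fun h =>
    hℓL ((Nat.dvd_of_mem_primeFactors h).mul_left N')
  obtain ⟨a, ha, ha𝔪⟩ := hcong ℓ hℓ hgood hℓN' hℓp
  exact ⟨a, by rw [ha, hgf ℓ hℓ hℓk], ha𝔪⟩

/-- **S38-WIRE2**: the frozen S38 from the frozen S39, BAD_q at squarefree levels and the two
PIVOT cores. -/
theorem s38_of_wire2 (h39 : Fermat.Agent.S59.LL.Stmt_S39) (hB : Stmt_BadQsf)
    (hPV : Fermat.Agent.S38.P3.Stmt_PivotWCoreAll)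
    (hSO : Fermat.Agent.S38.P3.Stmt_PivotWCoreSOAll) : Fermat.Agent.S59.LL.Stmt_S38 := by
  intro p hpF hp2 W hΔ hW hcard₁ hker hirr M q hq hqp hqM hq2 hM hunr hres
  have hp : p.Prime := hpF.out
  have hunr' : UnrW W p q := by
    intro A hA σ hσ v
    have h1 := hunr A hA σ hσ
    have h2 : galoisRepModuleEnd (S := ℚ) (K := AlgebraicClosure ℚ)
        (W.map (Int.castRingHom ℚ)).toAffine p σ = 1 := h1
    rw [h2]
    rfl
  obtain ⟨N', hN'M, hqN', hN'⟩ := lower_to_prime_to_q h39 hB hPV hSO p hp hp2 W hΔ hW hirr q hq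
    hqp hunr' M M le_rfl hM hres
  have hMq : M / q ∣ M := Nat.div_dvd_of_dvd hqM
  have hdvd : N' ∣ M / q := by
    have h3 : M = q * (M / q) := (Nat.mul_div_cancel' hqM).symm
    rw [h3] at hN'M
    exact (Nat.Coprime.dvd_mul_left
      ((Nat.Prime.coprime_iff_not_dvd hq).2 hqN').symm).1 hN'M
  exact raise_level W p (hM.squarefree_of_dvd hMq) hdvd hN'

/-- **The frozen statement S38** from the four inputs. -/
theorem result_of_wire2 (h39 : Fermat.Agent.S59.LL.Stmt_S39) (hB : Stmt_BadQsf)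
    (hPV : Fermat.Agent.S38.P3.Stmt_PivotWCoreAll)
    (hSO : Fermat.Agent.S38.P3.Stmt_PivotWCoreSOAll)
    (p : ℕ) [Fact p.Prime] (_hp2 : p ≠ 2) (W : WeierstrassCurve ℤ) (_hΔ : W.Δ ≠ 0)
    (_hW : W.IsSemistableModel)
    (hcard₁ : Nat.card (Submodule.torsionBy ℤ
      ((W.map (Int.castRingHom ℚ))⁄(AlgebraicClosure ℚ)).Point p) = p ^ 2)
    (hker : GaloisFactorsThroughFiniteLevel
      (WeierstrassCurve.Affine.Point.galoisRepModuleEnd (K := AlgebraicClosure ℚ) ℚ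
        (W.map (Int.castRingHom ℚ)) p))
    (_hirr : W.ModRepIsIrreducible p) (M q : ℕ) (hq : q.Prime) (hqp : q ≠ p)
    (hqM : q ∣ M) (hq2 : ¬ q ^ 2 ∣ M) (hM : Squarefree M)
    (hunr : ((W.map (Int.castRingHom ℚ)).residualGaloisRepOf p hcard₁ hker).IsUnramifiedAt q)
    (hres : W.IsResiduallyModularOfLevel p M) :
    W.IsResiduallyModularOfLevel p (M / q) :=
  s38_of_wire2 h39 hB hPV hSO p _hp2 W _hΔ _hW hcard₁ hker _hirr M q hq hqp hqM hq2 hM hunr hres

end Fermat.Agent.S38.H75
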