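/-
S38 (row 37, general form of Ribet's level lowering), WIRE3 (helper37): the wiring of the
frozen S38 which works at `p = 3`.

At `p = 3` the component group of `J₀(M q)` at `q ≡ 2 mod 3` has thick nodes (`e = 3`), and
COMP-EIS with an ARBITRARY non-Eisenstein witness needs the moduli interpretation at `j = 0`.
With a STRONG witness (primes `r ≡ 2 mod 3` with `t_r ≢ 0 mod 3`, `P3.StrongAt`) it does not
(helper60, helper57, helper52, helper93): no place over a thick node is thick at the level `M r`.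
The strong witness exists for a semistable curve with `E[3]` irreducible (`P3.Stmt_Strong`,
helper57).  Interface of the leaves: `S38/P3/Defs.lean` (helper60), plan `NOTES/plan/L_S38_P3.md`.

* `WeakWit` : the usual witness (the system is not Eisenstein);
* `HasToricPartAtG Wit`, `RemovesQ2G Wit`, `removesQ2G_of_toric` : Mazur's principle at `q` with
  the witness as a parameter (the proofs of `S43.removesQ_of_toric`, `H76.removesQ2_of_toric`);
* `CompEisAtG Wit`, `hasToricAtG_of` : the wiring of BAD_q with the witness as a parameter;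
* `Stmt_NonExcW` : Mazur's principle at a prime which is not exceptional, curve form;
  `nonExcW_of : FrobToricGen → CompEis → P3.Stmt_CompEis3S → OldGen → P3.Stmt_Strong →
  Stmt_NonExcW`;
* `s38_of_nonExcW : Stmt_S39 → Stmt_NonExcW → P3.Stmt_PivotWCoreAll → P3.Stmt_PivotWCoreSOAll →
  Stmt_S38`
  (helper75's induction on the level, with the Mazur step as a hypothesis);
* `s38_of_wire3` : the frozen S38 from the leaves.
-/
import Fermat.Agent.S38.H75_Wire2
import Fermat.Agent.S38.P3.Defs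

set_option autoImplicit false
set_option linter.style.haveILetI false
set_option linter.unusedSectionVars false
set_option synthInstance.maxHeartbeats 400000
set_option maxHeartbeats 1000000

noncomputable section

open AlgebraicCurve ModularCurve
open WeierstrassCurve WeierstrassCurve.Affine WeierstrassCurve.Affine.Point
open scoped WeierstrassCurve.Affine

namespace Fermat.Agent.S38.H37

open Fermat.Agent.BAD Fermat.Agent.S44 Fermat.Agent.L Fermat.Agent.S43 Fermat.Agent.S43.BadQ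
open Fermat.Agent.S38 Fermat.Agent.L.Pivot.H76 Fermat.Agent.S38.H75

/-! ## The witnesses -/

/-- The usual witness: the system `t` is not Eisenstein. -/
def WeakWit (p N : ℕ) (S : Finset ℕ) (t : ℕ → ℤ) : Prop :=
  ∃ ℓ : ℕ, ℓ.Prime ∧ ℓ ∉ S ∧ ¬ ℓ ∣ N ∧ ℓ ≠ p ∧ ((t ℓ : ℤ) : ZMod p) ≠ 1 + (ℓ : ZMod p)

/-- The strong witness gives the usual one. -/
theorem weakWit_of_strongAt {N : ℕ} {S : Finset ℕ} {t : ℕ → ℤ}
    (h : Fermat.Agent.S38.P3.StrongAt N S t) : WeakWit 3 N S t := by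
  obtain ⟨r, -, hr, -, -, h5, -, hr3, -, hrS, -, hrN, -, h2, -⟩ := h
  refine ⟨r, hr, hrS, hrN, ?_, ?_⟩
  · rintro rfl
    omega
  · have h1 : (r : ZMod 3) = 2 := by
      have h3 : ((r % 3 : ℕ) : ZMod 3) = (r : ZMod 3) := ZMod.natCast_mod r 3
      rw [← h3, hr3]
      rfl
    rw [h1]
    have h4 : (1 : ZMod 3) + 2 = 0 := by decide
    rw [h4]
    exact h2

/-! ## Mazur's principle with the witness as a parameter -/

/-- **BAD_q, abstract form**, with the witness as a parameter. -/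
def HasToricPartAtG {p : ℕ} (H : HeckeGaloisModule p)
    (N q : ℕ) (A : ValuationSubring (AlgebraicClosure ℚ))
    (Wit : Finset ℕ → (ℕ → ℤ) → Prop) : Prop :=
  ∃ (T : Submodule (ZMod p) H.J) (U : Module.End (ZMod p) H.J),
    (∀ σ : GQ, U * H.gal σ = H.gal σ * U) ∧
    (∀ x ∈ T, U x ∈ T ∧ U (U x) = x) ∧
    (∀ σ : GQ, A.IsFrobeniusAt σ q → ∀ x ∈ T, H.gal σ x = (q : ZMod p) • U x) ∧
    (∀ (S : Finset ℕ) (t : ℕ → ℤ) (x : H.J), x ∉ T →
      (∀ σ ∈ A.inertiaSubgroupIn ℚ, H.gal σ x = x) →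
      (∀ ℓ : ℕ, ℓ.Prime → ℓ ∉ S → ¬ ℓ ∣ N → ℓ ≠ p → H.T ℓ x = ((t ℓ : ℤ) : ZMod p) • x) →
      Wit S t →
      ∃ (g : CuspForm (CongruenceSubgroup.Gamma0 (N / q)) 2) (𝔪 : Ideal ZBar),
        g.IsNormalizedEigenform ∧ 𝔪.IsMaximal ∧ (p : ZBar) ∈ 𝔪 ∧
        ∀ ℓ : ℕ, ℓ.Prime → ℓ ∉ S → ¬ ℓ ∣ N → ℓ ≠ p →
          ∃ a : ZBar, (a : ℂ) = ModularFormClass.qCoeff g ℓ ∧ a - ((t ℓ : ℤ) : ZBar) ∈ 𝔪)

/-- The usual structure is the case of the weak witness. -/
theorem hasToricPartAtG_of {p : ℕ} (H : HeckeGaloisModule p)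
    (N q : ℕ) (A : ValuationSubring (AlgebraicClosure ℚ)) (h : H.HasToricPartAt N q A) :
    HasToricPartAtG H N q A (WeakWit p N) := h

/-- **Mazur's principle at `q`, module form**, with the witness as a parameter. -/
def RemovesQ2G {p : ℕ} (H : HeckeGaloisModule p)
    (N q : ℕ) (A : ValuationSubring (AlgebraicClosure ℚ))
    (Wit : Finset ℕ → (ℕ → ℤ) → Prop) : Prop :=
  ∀ (V : Type) [AddCommGroup V] [Module (ZMod p) V] (ρ : GQ →* Module.End (ZMod p) V)
    (ι : V →ₗ[ZMod p] H.J) (S : Finset ℕ) (t : ℕ → ℤ),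
    (∀ W : Submodule (ZMod p) V, (∀ σ : GQ, ∀ x ∈ W, ρ σ x ∈ W) → W = ⊥ ∨ W = ⊤) →
    (∀ σ ∈ A.inertiaSubgroupIn ℚ, ∀ v : V, ρ σ v = v) →
    (¬ ∃ ε : ZMod p, ε * ε = 1 ∧ ∀ σ : GQ, A.IsFrobeniusAt σ q → ∀ v : V,
      ρ σ v = ((q : ZMod p) * ε) • v) →
    Function.Injective ι →
    (∀ (σ : GQ) (v : V), ι (ρ σ v) = H.gal σ (ι v)) →
    (∀ ℓ : ℕ, ℓ.Prime → ℓ ∉ S → ¬ ℓ ∣ N → ℓ ≠ p →
      ∀ v : V, H.T ℓ (ι v) = ((t ℓ : ℤ) : ZMod p) • ι v) →
    Wit S t →
    ∃ (g : CuspForm (CongruenceSubgroup.Gamma0 (N / q)) 2) (𝔪 : Ideal ZBar),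
      g.IsNormalizedEigenform ∧ 𝔪.IsMaximal ∧ (p : ZBar) ∈ 𝔪 ∧
      ∀ ℓ : ℕ, ℓ.Prime → ℓ ∉ S → ¬ ℓ ∣ N → ℓ ≠ p →
        ∃ a : ZBar, (a : ℂ) = ModularFormClass.qCoeff g ℓ ∧ a - ((t ℓ : ℤ) : ZBar) ∈ 𝔪

/-- **Mazur's principle at `q`** from the abstract structure, with the witness as a parameter
(the proof of `H76.removesQ2_of_toric`). -/
theorem removesQ2G_of_toric {p : ℕ} (hp : p.Prime) (hp2 : p ≠ 2) (H : HeckeGaloisModule p)
    (N q : ℕ) (A : ValuationSubring (AlgebraicClosure ℚ))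
    (Wit : Finset ℕ → (ℕ → ℤ) → Prop)
    (hbad : HasToricPartAtG H N q A Wit) : RemovesQ2G H N q A Wit := by
  have : Fact p.Prime := ⟨hp⟩
  intro V _ _ ρ ι S t hirr hunr hnexc hinj hequiv hT hNE
  obtain ⟨T, U, hUgal, hUT, hFrob, hlow⟩ := hbad
  by_cases hcase : ∃ v : V, ι v ∉ T
  · obtain ⟨v, hv⟩ := hcase
    refine hlow S t (ι v) hv (fun σ hσ => ?_) (fun ℓ hℓ hℓS hℓN hℓp => hT ℓ hℓ hℓS hℓN hℓp v) hNE
    rw [← hequiv, hunr σ hσ v]
  · exfalso
    push Not at hcase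
    have h2 : (2 : ZMod p) ≠ 0 := by
      intro h
      have h' : ((2 : ℕ) : ZMod p) = 0 := by exact_mod_cast h
      rw [ZMod.natCast_eq_zero_iff] at h'
      exact hp2 ((Nat.prime_dvd_prime_iff_eq hp Nat.prime_two).mp h')
    -- the two eigen-components of `ι` for `U`
    have key : ∀ ε : ZMod p, ε * ε = 1 → (∃ v, ι v + ε • U (ι v) ≠ 0) →
        ∀ σ : GQ, A.IsFrobeniusAt σ q → ∀ v : V, ρ σ v = ((q : ZMod p) * ε) • v := by
      intro ε hε hne σ hσ v
      set κ : V →ₗ[ZMod p] H.J := ι + ε • (U ∘ₗ ι) with hκ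
      have hκv : ∀ w, κ w = ι w + ε • U (ι w) := fun w => rfl
      have hκeq : ∀ (τ : GQ) (w : V), κ (ρ τ w) = H.gal τ (κ w) := by
        intro τ w
        rw [hκv, hκv, hequiv, map_add, map_smul]
        congr 2
        have := congrArg (fun f : Module.End (ZMod p) H.J => f (ι w)) (hUgal τ)
        simpa using this
      have hκinj : Function.Injective κ := injective_of_irreducible ρ H.gal hirr κ hκeq hne
      have hκT : ∀ w, κ w ∈ T := fun w => by
        rw [hκv]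
        exact T.add_mem (hcase w) (T.smul_mem _ (hUT _ (hcase w)).1)
      have hUκ : ∀ w, U (κ w) = ε • κ w := by
        intro w
        rw [hκv, map_add, map_smul, (hUT _ (hcase w)).2, smul_add, smul_smul, hε, one_smul, add_comm]
      apply hκinj
      rw [hκeq, hFrob σ hσ _ (hκT v), hUκ, smul_smul, map_smul]
    apply hnexc
    by_cases hplus : ∃ v, ι v + (1 : ZMod p) • U (ι v) ≠ 0
    · exact ⟨1, by ring, key 1 (by ring) hplus⟩
    · push Not at hplus
      have hminus : ∃ v, ι v + (-1 : ZMod p) • U (ι v) ≠ 0 := by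
        by_contra hcon
        push Not at hcon
        have hι0 : ∀ v, ι v = 0 := by
          intro v
          have h1 := hplus v
          have h3 := hcon v
          have h4 : (2 : ZMod p) • ι v = 0 := by
            have : (2 : ZMod p) • ι v
                = (ι v + (1 : ZMod p) • U (ι v)) + (ι v + (-1 : ZMod p) • U (ι v)) := by
              rw [two_smul]; module
            rw [this, h1, h3, add_zero]
          rcases smul_eq_zero.mp h4 with h | h
          · exact absurd h h2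
          · exact h
        have hV0 : ∀ v : V, v = 0 := fun v => hinj (by rw [hι0 v, _root_.map_zero])
        exact hnexc ⟨1, by ring, fun σ _ v => by rw [hV0 v]; simp⟩
      exact ⟨-1, by ring, key (-1) (by ring) hminus⟩

/-! ## BAD_q with the witness as a parameter -/

/-- **COMP-EIS at `(p, N, A)`** with the witness as a parameter. -/
def CompEisAtG (p N : ℕ) [NeZero N] (A : ValuationSubring (AlgebraicClosure ℚ))
    (Wit : Finset ℕ → (ℕ → ℤ) → Prop) : Prop :=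
  ∀ (S : Finset ℕ) (t : ℕ → ℤ) (x : (jzModule N p).J),
    (∀ σ ∈ A.inertiaSubgroupIn ℚ, (jzModule N p).gal σ x = x) →
    (∀ ℓ : ℕ, ℓ.Prime → ℓ ∉ S → ¬ ℓ ∣ N → ℓ ≠ p →
      (jzModule N p).T ℓ x = ((t ℓ : ℤ) : ZMod p) • x) →
    Wit S t →
    Fin1 A N p (jzModule.pt N p x)

/-- The usual COMP-EIS is the case of the weak witness. -/
theorem compEisAtG_of {p N : ℕ} [NeZero N] {A : ValuationSubring (AlgebraicClosure ℚ)}
    (h : CompEisAt p N A) : CompEisAtG p N A (WeakWit p N) := h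

section Wiring

variable (q M : ℕ) (a b : ℤ) (hab : a * q + b * M = 1) (hq : q.Prime) [NeZero (M * q)] (p : ℕ)
  (A : ValuationSubring (AlgebraicClosure ℚ))

include hab hq in
/-- **The wiring at level `M q`, per-level form**, with the witness as a parameter (the proof of
`S43.BadQ.hasToricAt_of`). -/
theorem hasToricAtG_of (Wit : Finset ℕ → (ℕ → ℤ) → Prop)
    (hW : Stmt_WHecke) {ε : ℤ} (hε : ε = 1 ∨ ε = -1)
    (hF : FrobToricAt ε p q M a b hab hq A) (hC : CompEisAtG p (M * q) A Wit)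
    (hO : OldAt p (M * q) q A) :
    HasToricPartAtG (jzModule (M * q) p) (M * q) q A Wit := by
  have hε2 : (((ε : ℤ) : ZMod p)) * ((ε : ℤ) : ZMod p) = 1 := by
    rcases hε with rfl | rfl <;> simp
  set w : Module.End (ZMod p) (JTors (M * q) p) := wTors q M a b hab hq p with hw
  refine ⟨toric q M a b hab hq p A, ((ε : ℤ) : ZMod p) • w, ?_, ?_, ?_, ?_⟩
  · intro σ
    show (((ε : ℤ) : ZMod p) • w) * JZero.torsionGaloisRep (M * q) p σ =
      JZero.torsionGaloisRep (M * q) p σ * (((ε : ℤ) : ZMod p) • w)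
    rw [smul_mul_assoc, mul_smul_comm, hw, wTors_comm_gal]
  · intro (x : JTors (M * q) p) hx
    have hx' := (mem_toric_iff q M a b hab hq p A x).1 hx
    have hwx : w x ∈ toric q M a b hab hq p A := by
      refine (mem_toric_iff q M a b hab hq p A (w x)).2 ⟨hx'.2, ?_⟩
      have h1 : wS q M a b hab hq • ((w x : JTors (M * q) p) : JZero (M * q)) =
          ((w (w x) : JTors (M * q) p) : JZero (M * q)) := rfl
      rw [h1, hw, wTors_wTors]
      exact hx'.1
    constructor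
    · exact (toric q M a b hab hq p A).smul_mem _ hwx
    · show ((ε : ℤ) : ZMod p) • w (((ε : ℤ) : ZMod p) • w x) = x
      rw [map_smul, smul_smul, hε2, one_smul, hw, wTors_wTors]
  · intro σ hσ (x : JTors (M * q) p) hx
    have hx' := (mem_toric_iff q M a b hab hq p A x).1 hx
    have hx0 : (p : ℤ) • ((x : JTors (M * q) p) : JZero (M * q)) = 0 :=
      Pic0.mem_torsion.mp x.property
    have h := hF σ hσ _ hx0 hx'.1 hx'.2
    show JZero.torsionGaloisRep (M * q) p σ x = (q : ZMod p) • (((ε : ℤ) : ZMod p) • w x)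
    apply Subtype.ext
    rw [JZero.coe_torsionGaloisRep_apply, h, smul_smul]
    have h2 : (q : ZMod p) * ((ε : ℤ) : ZMod p) = (((ε * (q : ℤ) : ℤ)) : ZMod p) := by
      push_cast
      ring
    rw [h2, coe_intCast_smul]
    rfl
  · intro S t x hxT hI hT hNE
    have hFx := hC S t x hI hT hNE
    by_cases h1 : InK1 A (M * q) p (jzModule.pt (M * q) p x)
    · -- then `w x ∉ K1`
      have h2 : ¬ InK1 A (M * q) p (jzModule.pt (M * q) p (w x)) := by
        intro h2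
        exact hxT ((mem_toric_iff q M a b hab hq p A x).2 ⟨h1, h2⟩)
      have hI' : ∀ σ ∈ A.inertiaSubgroupIn ℚ, (jzModule (M * q) p).gal σ (w x) = w x := by
        intro σ hσ
        rw [hw, wTors_gal, hI σ hσ]
      have hT' : ∀ ℓ : ℕ, ℓ.Prime → ℓ ∉ S → ¬ ℓ ∣ M * q → ℓ ≠ p →
          (jzModule (M * q) p).T ℓ (w x) = ((t ℓ : ℤ) : ZMod p) • w x := by
        intro ℓ hℓ hℓS hℓN hℓp
        rw [hw, wTors_T q M a b hab hq p hW hℓ hℓN, hT ℓ hℓ hℓS hℓN hℓp]
        exact map_smul (wTors q M a b hab hq p) _ _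
      have hFw := hC S t (w x) hI' hT' hNE
      exact hO S t (w x) hFw h2 hT'
    · exact hO S t x hFx h1 hT

end Wiring

/-! ## Mazur's principle at a prime which is not exceptional, curve form -/

/-- **Mazur's principle at a prime which is not exceptional**, curve form, from the abstract
structure at the level `N` and a witness for the system of `W`. -/
theorem lowerConcl_nonexcG (Wit : Finset ℕ → (ℕ → ℤ) → Prop)
    (p : ℕ) (hp : p.Prime) (hp2 : p ≠ 2) (W : WeierstrassCurve ℤ) (hΔ : W.Δ ≠ 0)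
    (hirr : GaloisRepIsIrreducible (K := AlgebraicClosure ℚ) ℚ
      (W.map (Int.castRingHom ℚ)).toAffine p)
    (N q : ℕ) [NeZero N] (hN : Squarefree N) (hq : q.Prime) (hqp : q ≠ p)
    (hunr : UnrW W p q) (hne : ¬ IsExcW W p q)
    (hbad : ∀ A : ValuationSubring (AlgebraicClosure ℚ), A.LiesOverPrime q →
      HasToricPartAtG (jzModule N p) N q A Wit)
    (hWit : Wit W.Δ.natAbs.primeFactors (fun ℓ => W.apOfModel ℓ))
    (f : CuspForm (CongruenceSubgroup.Gamma0 N) 2)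
    (𝔪 : Ideal (integralClosure ℤ ℂ)) (hf : f.IsNormalizedEigenform)
    (h𝔪 : 𝔪.IsMaximal) (hp𝔪 : (p : integralClosure ℤ ℂ) ∈ 𝔪)
    (hcong : ∀ ℓ : ℕ, ℓ.Prime → W.IsGoodPrimeFor ℓ → ¬ ℓ ∣ N → ℓ ≠ p →
      ∃ a : integralClosure ℤ ℂ, (a : ℂ) = ModularFormClass.qCoeff f ℓ ∧
        a - ((W.apOfModel ℓ : ℤ) : integralClosure ℤ ℂ) ∈ 𝔪) :
    LowerConcl p N q W := by
  have hNpos : 0 < N := Nat.pos_of_ne_zero hN.ne_zero
  have : NeZero N := ⟨hN.ne_zero⟩
  have : Fact p.Prime := ⟨hp⟩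
  have hWE := isIntegralModelOf_map W
  have : (W.map (Int.castRingHom ℚ)).IsElliptic :=
    ⟨isUnit_iff_ne_zero.mpr (by
      rw [WeierstrassCurve.map_Δ]
      simpa using hΔ)⟩
  obtain ⟨A, hAq⟩ := stmt_PlaceOver q hq
  have hnsc : ¬ ∃ ε : ZMod p, ε * ε = 1 ∧ ∀ σ : GQ, A.IsFrobeniusAt σ q →
      ∀ v : Tors (W.map (Int.castRingHom ℚ)) p,
        galoisRepModuleEnd (S := ℚ) (K := AlgebraicClosure ℚ)
          (W.map (Int.castRingHom ℚ)).toAffine p σ v = ((q : ZMod p) * ε) • v := by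
    rintro ⟨ε, hε, h⟩
    exact hne ⟨dvd_sub_one_of_scalar hWE hΔ hq hqp A hAq ε hε h, A, hAq, (q : ZMod p) * ε, h⟩
  obtain ⟨hcont, hES, hsupp⟩ := stmt_TateModP p hp hp2 N
  set S : Finset ℕ := W.Δ.natAbs.primeFactors with hS
  have hgood : ∀ ℓ : ℕ, ℓ.Prime → ℓ ∉ S → W.IsGoodPrimeFor ℓ := fun ℓ hℓ h =>
    prime_not_mem_of_good hℓ hΔ h
  obtain ⟨x, hx0, hx⟩ := hsupp f 𝔪 S (fun ℓ => W.apOfModel ℓ) hf h𝔪 hp𝔪
    (fun ℓ hℓ hℓS hℓN hℓp => hcong ℓ hℓ (hgood ℓ hℓ hℓS) hℓN hℓp)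
  obtain ⟨ι, hinj, hequiv, hT⟩ := Fermat.Agent.L.H52.recovery p hp hp2 N hNpos
    (jzModule N p) hcont hES (W.map (Int.castRingHom ℚ)) W hWE hirr S hgood x hx0 hx
  have hrem := removesQ2G_of_toric hp hp2 (jzModule N p) N q A Wit (hbad A hAq)
  obtain ⟨g, 𝔪', hg, h𝔪', hp𝔪', hgc⟩ := hrem (Tors (W.map (Int.castRingHom ℚ)) p)
    (galoisRepModuleEnd (S := ℚ) (K := AlgebraicClosure ℚ)
      (W.map (Int.castRingHom ℚ)).toAffine p)
    ι S (fun ℓ => W.apOfModel ℓ)
    (fun W' hW' => hirr.2 W' (fun σ x hx => hW' σ x hx))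
    (fun σ hσ v => hunr A hAq σ hσ v)
    hnsc hinj (fun σ v => hequiv σ v) hT hWit
  exact ⟨g, 𝔪', S, hg, h𝔪', hp𝔪', fun ℓ hℓ hℓS hℓN hℓp _ => hgc ℓ hℓ hℓS hℓN hℓp⟩

/-- **Mazur's principle at a prime which is not exceptional**, curve form (statement). -/
def Stmt_NonExcW : Prop :=
  ∀ (p : ℕ), p.Prime → p ≠ 2 → ∀ (W : WeierstrassCurve ℤ), W.Δ ≠ 0 → W.IsSemistableModel →
    W.ModRepIsIrreducible p →
    ∀ (N q : ℕ), Squarefree N → q.Prime → q ≠ p → q ∣ N → UnrW W p q → ¬ IsExcW W p q →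
    ∀ (f : CuspForm (CongruenceSubgroup.Gamma0 N) 2) (𝔪 : Ideal (integralClosure ℤ ℂ)),
      f.IsNormalizedEigenform → 𝔪.IsMaximal → (p : integralClosure ℤ ℂ) ∈ 𝔪 →
      (∀ ℓ : ℕ, ℓ.Prime → W.IsGoodPrimeFor ℓ → ¬ ℓ ∣ N → ℓ ≠ p →
        ∃ a : integralClosure ℤ ℂ, (a : ℂ) = ModularFormClass.qCoeff f ℓ ∧
          a - ((W.apOfModel ℓ : ℤ) : integralClosure ℤ ℂ) ∈ 𝔪) →
      LowerConcl p N q W

/-- `Stmt_BadQsf` (all odd `p`) gives the Mazur step: helper75's `lowerConcl_nonexc`. -/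
theorem nonExcW_of_badQsf (h2 : Stmt_BadQsf) : Stmt_NonExcW :=
  fun p hp hp2 W hΔ _ hirr N q hN hq hqp hqN hunr hne f 𝔪 hf h𝔪 hp𝔪 hcong =>
    lowerConcl_nonexc h2 p hp hp2 W hΔ hirr N q hN hq hqp hqN hunr hne f 𝔪 hf h𝔪 hp𝔪 hcong

/-- An odd prime is `3` or at least `5`. -/
theorem eq_three_or_five_le {p : ℕ} (hp : p.Prime) (hp2 : p ≠ 2) : p = 3 ∨ 5 ≤ p := by
  have h2 := hp.two_le
  have h4 : p ≠ 4 := by
    rintro rfl
    exact absurd hp (by decide)
  omega

/-- **The Mazur step from the leaves**: FROB-T and OLD (all odd `p`), COMP-EIS (`p ≥ 5`),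
COMP-EIS3 in the strong form and STRONG (`p = 3`). -/
theorem nonExcW_of (hF : Stmt_FrobToricGen) (hC : Stmt_CompEis)
    (hC3 : Fermat.Agent.S38.P3.Stmt_CompEis3S)
    (hO : Stmt_OldGen) (hWit : Fermat.Agent.S38.P3.Stmt_Strong) : Stmt_NonExcW := by
  intro p hp hp2 W hΔ hW hirr N q hN hq hqp hqN hunr hne f 𝔪 hf h𝔪 hp𝔪 hcong
  have : NeZero N := ⟨hN.ne_zero⟩
  have hq2 : ¬ q ^ 2 ∣ N := fun h => hq.not_isUnit (hN q (by rwa [pow_two] at h))
  -- the abstract structure at the level `N = M q`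
  have hstr : ∀ (Wit : Finset ℕ → (ℕ → ℤ) → Prop),
      (∀ A : ValuationSubring (AlgebraicClosure ℚ), A.LiesOverPrime q →
        CompEisAtG p N A Wit) →
      ∀ A : ValuationSubring (AlgebraicClosure ℚ), A.LiesOverPrime q →
        HasToricPartAtG (jzModule N p) N q A Wit := by
    intro Wit hCW A hA
    obtain ⟨M, rfl⟩ : ∃ M, N = M * q := ⟨N / q, (Nat.div_mul_cancel hqN).symm⟩
    have hqM : ¬ q ∣ M := by
      rintro ⟨k, rfl⟩
      exact hq.not_isUnit (hN q ⟨k, by ring⟩)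
    have hcop : IsCoprime (q : ℤ) (M : ℤ) :=
      Nat.isCoprime_iff_coprime.2 ((Nat.Prime.coprime_iff_not_dvd hq).2 hqM)
    obtain ⟨a, b, hab⟩ := hcop
    exact hasToricAtG_of q M a b hab hq p A Wit Fermat.Agent.S43.H88.stmt_WHecke (Or.inr rfl)
      (hF p hp hp2 q M a b hab hq hqp hN A hA) (hCW A hA)
      (hO p hp hp2 (M * q) q hq hqp hqN hN A hA)
  rcases eq_three_or_five_le hp hp2 with rfl | hp5
  · -- `p = 3`: the strong witness
    refine lowerConcl_nonexcG (Fermat.Agent.S38.P3.StrongAt N) 3 hp hp2 W hΔ hirr N q hN hq hqp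
      hunr hne (hstr _ (fun A hA => hC3 N q hq hqp hqN hq2 A hA))
      (Fermat.Agent.S38.P3.strongAt_of_strong hWit W hΔ hW hirr N hN.ne_zero _)
      f 𝔪 hf h𝔪 hp𝔪 hcong
  · -- `p ≥ 5`: the weak witness
    have hNpos : 0 < N := Nat.pos_of_ne_zero hN.ne_zero
    have hWE := isIntegralModelOf_map W
    have : (W.map (Int.castRingHom ℚ)).IsElliptic :=
      ⟨isUnit_iff_ne_zero.mpr (by
        rw [WeierstrassCurve.map_Δ]
        simpa using hΔ)⟩
    have hNE : WeakWit p N W.Δ.natAbs.primeFactors (fun ℓ => W.apOfModel ℓ) := by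
      have h := Fermat.Agent.S41.H19.stmt_I3 (W.map (Int.castRingHom ℚ)) W hWE p N hp hNpos hirr
      by_contra hcon
      apply h
      intro ℓ hℓ hℓW hℓN hℓp
      by_contra hne'
      refine hcon ⟨ℓ, hℓ, ?_, hℓN, hℓp, hne'⟩
      intro hmem
      rw [Nat.mem_primeFactors] at hmem
      exact hℓW (Int.natCast_dvd.mpr hmem.2.1)
    refine lowerConcl_nonexcG (WeakWit p N) p hp hp2 W hΔ hirr N q hN hq hqp hunr hne
      (hstr _ (fun A hA => compEisAtG_of
        ((stmt_CompEis_iff.mp hC) p hp hp5 N q hq hqp hqN hq2 A hA)))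
      hNE f 𝔪 hf h𝔪 hp𝔪 hcong

/-! ## The induction on the level (helper75), with the Mazur step as a hypothesis -/

/-- **Lowering to a level prime to `q`** (induction on the level; the proof of
`H75.lower_to_prime_to_q`). -/
theorem lower_to_prime_to_q' (h39 : Fermat.Agent.S59.LL.Stmt_S39) (hB : Stmt_NonExcW)
    (hPV : Fermat.Agent.S38.P3.Stmt_PivotWCoreAll)
    (hSO : Fermat.Agent.S38.P3.Stmt_PivotWCoreSOAll)
    (p : ℕ) (hp : p.Prime) (hp2 : p ≠ 2) (W : WeierstrassCurve ℤ) (hΔ : W.Δ ≠ 0)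
    (hW : W.IsSemistableModel) (hirr : W.ModRepIsIrreducible p)
    (q : ℕ) (hq : q.Prime) (hqp : q ≠ p) (hunr : UnrW W p q) :
    ∀ n : ℕ, ∀ N : ℕ, N ≤ n → Squarefree N → W.IsResiduallyModularOfLevel p N →
      ∃ N' : ℕ, N' ∣ N ∧ ¬ q ∣ N' ∧ W.IsResiduallyModularOfLevel p N' := by
  intro n
  induction n with
  | zero =>
    intro N hN hsq _
    exact absurd (Nat.le_zero.mp hN) hsq.ne_zero
  | succ n ih =>
    intro N hNle hsq hres
    have hNpos : 0 < N := Nat.pos_of_ne_zero hsq.ne_zero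
    by_cases hqN : q ∣ N
    swap
    · exact ⟨N, dvd_rfl, hqN, hres⟩
    -- a smaller level suffices
    have step : ∀ r : ℕ, r.Prime → r ∣ N → W.IsResiduallyModularOfLevel p (N / r) →
        ∃ N' : ℕ, N' ∣ N ∧ ¬ q ∣ N' ∧ W.IsResiduallyModularOfLevel p N' := by
      intro r hr hrN hM
      have hdvd : N / r ∣ N := Nat.div_dvd_of_dvd hrN
      have hlt : N / r < N := Nat.div_lt_self hNpos hr.one_lt
      obtain ⟨N', hN'M, hqN', hN'⟩ := ih (N / r) (by omega) (hsq.squarefree_of_dvd hdvd) hM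
      exact ⟨N', hN'M.trans hdvd, hqN', hN'⟩
    -- the conclusion of the core at a prime `r` gives the level `N / r`
    have ofLC : ∀ r : ℕ, r.Prime → r ∣ N → LowerConcl p N r W →
        W.IsResiduallyModularOfLevel p (N / r) := fun r hr hrN h =>
      isResiduallyModular_of_lowerConcl Fermat.Agent.S38.H49.stmt_Complete p hp W hΔ N r hsq hr
        hrN h
    obtain ⟨f, 𝔪, hf, h𝔪, hp𝔪, hcong⟩ := hres
    have hres' : W.IsResiduallyModularOfLevel p N := ⟨f, 𝔪, hf, h𝔪, hp𝔪, hcong⟩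
    by_cases hpeu : p ∣ N ∧ (W.map (Int.castRingHom ℚ)).IsPeuRamifieeAt p p
    · -- remove `p`
      obtain ⟨hpN, hfin⟩ := hpeu
      have hp2N : ¬ p ^ 2 ∣ N := fun h =>
        hp.not_isUnit (hsq p (by rwa [pow_two] at h))
      exact step p hp hpN
        (h39 W hΔ hp hp2 (fun h => hW p hp h) hirr hfin hNpos hpN hp2N hres')
    · by_cases hall : ∀ q' : ℕ, q'.Prime → q' ≠ p → q' ∣ N → UnrW W p q' → IsExcW W p q'
      · -- PIVOT
        have hLC : LowerConcl p N q W := by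
          by_cases hpN : p ∣ N
          · have hnpeu : ¬ (W.map (Int.castRingHom ℚ)).IsPeuRamifieeAt p p :=
              fun h => hpeu ⟨hpN, h⟩
            have hpΔ : (p : ℤ) ∣ W.Δ := by
              by_contra h
              exact hnpeu (isPeuRamifieeAt_of_not_dvd W p h)
            exact hSO p hp hp2 W hΔ hW hirr N q hsq hpN hpΔ hnpeu hq hqp hqN hunr hall f 𝔪 ∅
              hf h𝔪 hp𝔪 (fun ℓ hℓ _ hg hℓN hℓp => hcong ℓ hℓ hg hℓN hℓp)
          · exact hPV p hp hp2 W hΔ hW hirr N q hsq hpN hq hqN hunr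
              (fun q' hq' hq'N hu => hall q' hq' (fun h => hpN (h ▸ hq'N)) hq'N hu) f 𝔪 ∅
              hf h𝔪 hp𝔪 (fun ℓ hℓ _ hg hℓN hℓp => hcong ℓ hℓ hg hℓN hℓp)
        refine ⟨N / q, Nat.div_dvd_of_dvd hqN, ?_, ofLC q hq hqN hLC⟩
        intro hqq
        obtain ⟨k, hk⟩ := hqq
        have h2 : q * q ∣ N := by
          have h3 : N = q * (N / q) := (Nat.mul_div_cancel' hqN).symm
          rw [h3, hk]
          exact ⟨k, by ring⟩
        exact hq.not_isUnit (hsq q h2)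
      · -- Mazur's principle at a prime which is not exceptional
        push Not at hall
        obtain ⟨q', hq', hq'p, hq'N, hu', hne⟩ := hall
        exact step q' hq' hq'N (ofLC q' hq' hq'N
          (hB p hp hp2 W hΔ hW hirr N q' hsq hq' hq'p hq'N hu' hne f 𝔪 hf h𝔪 hp𝔪 hcong))

/-- **S38 from the frozen S39, the Mazur step and the two PIVOT cores.** -/
theorem s38_of_nonExcW (h39 : Fermat.Agent.S59.LL.Stmt_S39) (hB : Stmt_NonExcW)
    (hPV : Fermat.Agent.S38.P3.Stmt_PivotWCoreAll)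
    (hSO : Fermat.Agent.S38.P3.Stmt_PivotWCoreSOAll) : Fermat.Agent.S59.LL.Stmt_S38 := by
  intro p hpF hp2 W hΔ hW hcard₁ hker hirr M q hq hqp hqM hq2 hM hunr hres
  have hp : p.Prime := hpF.out
  have hunr' : UnrW W p q := by
    intro A hA σ hσ v
    have h1 := hunr A hA σ hσ
    have h2 : galoisRepModuleEnd (S := ℚ) (K := AlgebraicClosure ℚ)
        (W.map (Int.castRingHom ℚ)).toAffine p σ = 1 := h1
    rw [h2]
    rfl
  obtain ⟨N', hN'M, hqN', hN'⟩ := lower_to_prime_to_q' h39 hB hPV hSO p hp hp2 W hΔ hW hirr q hq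
    hqp hunr' M M le_rfl hM hres
  have hMq : M / q ∣ M := Nat.div_dvd_of_dvd hqM
  have hdvd : N' ∣ M / q := by
    have h3 : M = q * (M / q) := (Nat.mul_div_cancel' hqM).symm
    rw [h3] at hN'M
    exact (Nat.Coprime.dvd_mul_left
      ((Nat.Prime.coprime_iff_not_dvd hq).2 hqN').symm).1 hN'M
  exact raise_level W p (hM.squarefree_of_dvd hMq) hdvd hN'

/-- **S38-WIRE3**: the frozen S38 from the frozen S39, the BAD_q leaves (with COMP-EIS3 in the
strong form and STRONG at `p = 3`) and the two PIVOT cores. -/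
theorem s38_of_wire3 (h39 : Fermat.Agent.S59.LL.Stmt_S39)
    (hF : Stmt_FrobToricGen) (hC : Stmt_CompEis) (hC3 : Fermat.Agent.S38.P3.Stmt_CompEis3S)
    (hO : Stmt_OldGen)
    (hWit : Fermat.Agent.S38.P3.Stmt_Strong) (hPV : Fermat.Agent.S38.P3.Stmt_PivotWCoreAll)
    (hSO : Fermat.Agent.S38.P3.Stmt_PivotWCoreSOAll) :
    Fermat.Agent.S59.LL.Stmt_S38 :=
  s38_of_nonExcW h39 (nonExcW_of hF hC hC3 hO hWit) hPV hSO

end Fermat.Agent.S38.H37
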