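/-
S38 (general Ribet), package BAD_q in the generality of S38: `p` odd (`p = 3` included), `q ≠ p`
any prime (`q = 2` included), squarefree level.  Cluster L, helper37.  Plan: `NOTES/plan/L_S38.md`.

What is new with respect to S43 (`S43/BadQAt.lean`, `p ≥ 5`, `q` odd):

* FROB-T: the modular datum exists at the tame levels (`q ≥ 5`; `q = 3`, `2 ∣ M`; `q = 2`, `3 ∣ M`)
  and gives FROB-T there for EVERY prime `p ≠ q` (`frobToricAt_of` has no condition on `p`).  The
  two remaining cases (`q = 3`, `M` odd; `q = 2`, `3 ∤ M`) are the descent `FrobDescAt p`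
  (level `6 M'` to level `3 M'` resp. `2 M'`; Kummer descent `RED.KD.H22.stmt_KD` is stated for
  every exponent `m`, so `p = 3` is allowed).
* COMP-EIS: `Stmt_CompEis` (`p ≥ 5`, every `q`) and the new leaf `Stmt_CompEis3` (`p = 3`).
* OLD: helper75's `Old.old_of` is general.

`result_of_open` : the frozen S38 from the open leaves.
-/
import Fermat.Agent.S38.Wiring
import Fermat.Agent.S43.Old.Final

set_option autoImplicit false
set_option synthInstance.maxHeartbeats 400000
set_option maxHeartbeats 1000000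

noncomputable section

open AlgebraicCurve ModularCurve
open WeierstrassCurve WeierstrassCurve.Affine WeierstrassCurve.Affine.Point
open scoped WeierstrassCurve.Affine

namespace Fermat.Agent.S38

open Fermat.Agent.BAD Fermat.Agent.S44 Fermat.Agent.L Fermat.Agent.S43 Fermat.Agent.S43.BadQ
open Fermat.Agent.RED

/-- FROB-T for the prime `p` at the tame levels. -/
def FrobToricTameAt (p : ℕ) : Prop :=
  ∀ (q M : ℕ) (a b : ℤ) (hab : a * q + b * M = 1) (hq : q.Prime) [NeZero (M * q)], q ≠ p →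
    ¬ q ∣ M → (5 ≤ q ∨ (q = 3 ∧ 2 ∣ M) ∨ (q = 2 ∧ 3 ∣ M)) →
    ∀ A : ValuationSubring (AlgebraicClosure ℚ), A.LiesOverPrime q →
      FrobToricAt (-1) p q M a b hab hq A

/-- The modular datum at the tame levels gives FROB-T there, for every prime `p`. -/
theorem frobToricTameAt_of (h : Stmt_ModSSDW_tame) (p : ℕ) (hp : p.Prime) : FrobToricTameAt p :=
  fun q M a b hab hq _ hqp hqM ht A hA =>
    frobToricAt_of hp q M a b hab hq hqp A hA (h q M a b hab hq hqM ht A hA)

/-- **FROB-DESC at `p`**: FROB-T at the two non-tame cases `q = 3`, `M` odd and `q = 2`, `3 ∤ M`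
from FROB-T at the tame levels (in fact from the level `M · 2 · 3` resp. `M · 3 · 2`).

Proof (Kummer form, as `BAD.H91.b1core_descend`; `r = 2` resp. `3` the auxiliary prime):
`x = [D]`, `p D = div f`, `w x = [D']`, `p D' = div f'`, `f, f'` Gauss units with residue `1` in
`F_{Mq} ⊆ F_{Mrq}`.  The same functions define classes `x₂, w x₂ ∈ K1` at level `M r q` (orders are
multiplied by the ramification indices; the Gauss valuation and `w_q` of level `M r q` restrict to
those of level `M q`: `S43.CompEis.H80.stmt_CE_WUp`).  FROB-T at level `M r q` gives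
`t₂ ∈ F_{Mrq}` with `t₂ ^ p = c (σ f) (w f) ^ q`; Kummer descent (`RED.KD.H22.stmt_KD`,
`M r q ∣ 36 · M q`, every exponent) gives `t ∈ F_{Mq}`, i.e. `σ x + q w x = 0`. -/
def FrobDescAt (p : ℕ) : Prop :=
  FrobToricTameAt p →
    ∀ (q M : ℕ) (a b : ℤ) (hab : a * q + b * M = 1) (hq : q.Prime) [NeZero (M * q)], q ≠ p →
      ¬ q ∣ M → ((q = 3 ∧ ¬ 2 ∣ M) ∨ (q = 2 ∧ ¬ 3 ∣ M)) →
      ∀ A : ValuationSubring (AlgebraicClosure ℚ), A.LiesOverPrime q →
        FrobToricAt (-1) p q M a b hab hq A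

/-- **FROB-DESC, general form.** -/
def Stmt_FrobDescGen : Prop := ∀ (p : ℕ), p.Prime → FrobDescAt p

/-- FROB-T at every level `M q`, `q ∤ M`, from the tame levels and the descent. -/
theorem frobToricAt_gen (p : ℕ) (ht : FrobToricTameAt p) (hd : FrobDescAt p)
    (q M : ℕ) (a b : ℤ) (hab : a * q + b * M = 1) (hq : q.Prime) [NeZero (M * q)]
    (hqp : q ≠ p) (hqM : ¬ q ∣ M)
    (A : ValuationSubring (AlgebraicClosure ℚ)) (hA : A.LiesOverPrime q) :
    FrobToricAt (-1) p q M a b hab hq A := by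
  by_cases h5 : 5 ≤ q
  · exact ht q M a b hab hq hqp hqM (Or.inl h5) A hA
  have hq23 : q = 2 ∨ q = 3 := by
    have h2 := hq.two_le
    have h4 : q ≠ 4 := by
      rintro rfl
      exact absurd hq (by decide)
    omega
  rcases hq23 with rfl | rfl
  · by_cases h3M : 3 ∣ M
    · exact ht 2 M a b hab hq hqp hqM (Or.inr (Or.inr ⟨rfl, h3M⟩)) A hA
    · exact hd ht 2 M a b hab hq hqp hqM (Or.inr ⟨rfl, h3M⟩) A hA
  · by_cases h2M : 2 ∣ M
    · exact ht 3 M a b hab hq hqp hqM (Or.inr (Or.inl ⟨rfl, h2M⟩)) A hA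
    · exact hd ht 3 M a b hab hq hqp hqM (Or.inl ⟨rfl, h2M⟩) A hA

theorem frobToricGen_of (h : Stmt_ModSSDW_tame) (hd : Stmt_FrobDescGen) : Stmt_FrobToricGen := by
  intro p hp _ q M a b hab hq _ hqp hsq A hA
  have hqM : ¬ q ∣ M := by
    rintro ⟨k, rfl⟩
    exact hq.not_isUnit (hsq q ⟨k, by ring⟩)
  exact frobToricAt_gen p (frobToricTameAt_of h p hp) (hd p hp) q M a b hab hq hqp hqM A hA

/-- The descent leaf of S43 (`q = 3`, `M` odd, `p ≥ 5`) is a special case. -/
theorem frobDesc_of_gen (hd : Stmt_FrobDescGen) : Stmt_FrobDesc := by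
  intro ht p hp hp5 M a b hab hq _ hqp h2M hsq A hA
  have hqM : ¬ 3 ∣ M := by
    rintro ⟨k, rfl⟩
    exact hq.not_isUnit (hsq 3 ⟨k, by ring⟩)
  refine hd p hp ?_ 3 M a b hab hq hqp hqM (Or.inl ⟨rfl, h2M⟩) A hA
  intro q' M' a' b' hab' hq' _ hq'p hq'M' ht' A' hA'
  exact ht p hp hp5 q' M' a' b' hab' hq' hq'p hq'M' ht' A' hA'

/-- **COMP-EIS at `p = 3`** (new leaf): thickness `3` at the supersingular points with `j = 0`
(`q ≡ 2 mod 3`) is divisible by `p`; see the plan. -/
def Stmt_CompEis3 : Prop :=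
  ∀ (N : ℕ) [NeZero N] (q : ℕ), q.Prime → q ≠ 3 → q ∣ N → Squarefree N →
    ∀ A : ValuationSubring (AlgebraicClosure ℚ), A.LiesOverPrime q → CompEisAt 3 N A

theorem compEisGen_of (h : Stmt_CompEis) (h3 : Stmt_CompEis3) : Stmt_CompEisGen := by
  intro p hp hp2 N _ q hq hqp hqN hsq A hA
  by_cases hp5 : 5 ≤ p
  · exact h p hp hp5 N q hq hqp hqN
      (fun h2 => hq.not_isUnit ((hsq q) (by rwa [pow_two] at h2))) A hA
  have hp3 : p = 3 := by
    have h2 := hp.two_le
    have h4 : p ≠ 4 := by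
      rintro rfl
      exact absurd hp (by decide)
    omega
  subst hp3
  exact h3 N q hq hqp hqN hsq A hA

theorem oldGen_of (hOR : Old.Stmt_OldRed) (hcore : H51.Stmt_HRcore) : Stmt_OldGen :=
  fun p hp _ N _ q hq _ hqN hsq A hA S t x hF hK hT =>
    Old.old_of hOR hcore p hp N q hq hqN
      (fun h2 => hq.not_isUnit ((hsq q) (by rwa [pow_two] at h2))) A hA S t x hF hK hT

/-- **S38 from the open leaves.**  The conclusion is the frozen statement S38. -/
theorem result_of_open (hS : Stmt_ModSSDW_tame) (hd : Stmt_FrobDescGen) (hC : Stmt_CompEis)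
    (hC3 : Stmt_CompEis3) (hOR : Old.Stmt_OldRed) (hcore : H51.Stmt_HRcore)
    (h3 : Stmt_PivotW) (hK : Stmt_Complete)
    (p : ℕ) [Fact p.Prime] (_hp2 : p ≠ 2) (W : WeierstrassCurve ℤ) (_hΔ : W.Δ ≠ 0)
    (_hW : W.IsSemistableModel)
    (hcard₁ : Nat.card (Submodule.torsionBy ℤ
      ((W.map (Int.castRingHom ℚ))⁄(AlgebraicClosure ℚ)).Point p) = p ^ 2)
    (hker : GaloisFactorsThroughFiniteLevel
      (WeierstrassCurve.Affine.Point.galoisRepModuleEnd (K := AlgebraicClosure ℚ) ℚ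
        (W.map (Int.castRingHom ℚ)) p))
    (_hirr : W.ModRepIsIrreducible p) (M q : ℕ) (hq : q.Prime) (hqp : q ≠ p)
    (hqM : q ∣ M) (hq2 : ¬ q ^ 2 ∣ M) (hM : Squarefree M)
    (hunr : ((W.map (Int.castRingHom ℚ)).residualGaloisRepOf p hcard₁ hker).IsUnramifiedAt q)
    (hres : W.IsResiduallyModularOfLevel p M) :
    W.IsResiduallyModularOfLevel p (M / q) :=
  result_of_leaves (frobToricGen_of hS hd) (compEisGen_of hC hC3) (oldGen_of hOR hcore) h3 hK
    p _hp2 W _hΔ _hW hcard₁ hker _hirr M q hq hqp hqM hq2 hM hunr hres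

end Fermat.Agent.S38
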