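import Fermat.Agent.S43.H13_FrobDesc
import Fermat.Agent.S38.BadQGen

/-!
# S38, leaf FROB-DESC-GEN (helper13)

`stmt_FrobDescGen : Stmt_FrobDescGen`: for every prime `p`, FROB-T at the two non-tame cases
(`q = 3`, `M` odd; `q = 2`, `3 ∤ M`) from FROB-T at the tame levels, by the descent
`S43.H13.frobToricAt_descend` from the level `(r M) q`, `r = 2` resp. `3`.
-/

set_option autoImplicit false
set_option linter.style.haveILetI false
set_option synthInstance.maxHeartbeats 400000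
set_option maxHeartbeats 1000000

noncomputable section

open AlgebraicCurve ModularCurve

namespace Fermat.Agent.S38.H13

open Fermat.Agent.S43.BadQ

/-- **FROB-DESC, general form.** -/
theorem stmt_FrobDescGen : Fermat.Agent.S38.Stmt_FrobDescGen := by
  intro p hp hT q M a b hab hq _ hqp hqM hcase A hA
  rcases hcase with ⟨rfl, h2M⟩ | ⟨rfl, h3M⟩
  · have h3M₂ : ¬ 3 ∣ 2 * M := by omega
    obtain ⟨hne, a₂, b₂, hab₂⟩ :=
      Fermat.Agent.S43.H13.exists_upper 3 2 M hq (by norm_num) h3M₂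
    haveI := hne
    exact Fermat.Agent.S43.H13.frobToricAt_descend hp 3 2 M a b a₂ b₂ hab hab₂ hq (by norm_num) A
      (hT 3 (2 * M) a₂ b₂ hab₂ hq hqp h3M₂ (Or.inr (Or.inl ⟨rfl, ⟨M, rfl⟩⟩)) A hA)
  · have h2M₂ : ¬ 2 ∣ 3 * M := by omega
    obtain ⟨hne, a₂, b₂, hab₂⟩ :=
      Fermat.Agent.S43.H13.exists_upper 2 3 M hq (by norm_num) h2M₂
    haveI := hne
    exact Fermat.Agent.S43.H13.frobToricAt_descend hp 2 3 M a b a₂ b₂ hab hab₂ hq (by norm_num) A
      (hT 2 (3 * M) a₂ b₂ hab₂ hq hqp h2M₂ (Or.inr (Or.inr ⟨rfl, ⟨M, rfl⟩⟩)) A hA)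

end Fermat.Agent.S38.H13
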