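/-
S38 (row 37, general form), the current state of the wiring, version 3 (helper37).
Plans: `NOTES/plan/L_S38.md`, `NOTES/plan/L_S38_P3.md`.

Proved and plugged in: MOD-W tame (`S43.H91.stmt_ModSSDW_tame`, helper91), FROB-DESC-GEN
(`S38.H13.stmt_FrobDescGen`, helper13), COMP-EIS for `p ≥ 5` (`S43.CompEis.H60.stmt_CompEis`,
helper60), OLD-RED (`S43.Old.H35.stmt_OldRed`, helper35), HRcore (`RED.H78.stmt_HRcore`,
helper78), COMPLETE (helper49), the induction on the level (helper75), the strong witness at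
`p = 3` (`P3.H57.stmt_Strong`, helper57).

So the frozen statement S38 follows from

* `S59.LL.Stmt_S39`      : the frozen S39 (helper71, helper93);
* `P3.Stmt_CompEis3S`    : COMP-EIS at `p = 3`, strong form (helper60);
* `P3.Stmt_PivotWCoreAll`, `P3.Stmt_PivotWCoreSOAll` : PIVOT, curve form, every odd `p`
  (`S38/P3/PivotDefs.lean`): `p ≥ 5` from `L/Pivot` (helper76, helper3, helper59), `p = 3` = the
  leaves `P3.Stmt_PivotWCore3`, `P3.Stmt_PivotWCoreSO3`.
-/
import Fermat.Agent.S38.H37_Wire3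
import Fermat.Agent.S38.H13_FrobDescGen
import Fermat.Agent.S43.H91_ModSSDW
import Fermat.Agent.S43.CompEis.H60_CompEis
import Fermat.Agent.S43.Old.H35_OldRed
import Fermat.Agent.RED.HR.H78_HRMain
import Fermat.Agent.S38.P3.H57_StrongFinal

set_option autoImplicit false

open WeierstrassCurve WeierstrassCurve.Affine WeierstrassCurve.Affine.Point
open scoped WeierstrassCurve.Affine

namespace Fermat.Agent.S38.H37

open Fermat.Agent.S43.BadQ Fermat.Agent.S38 Fermat.Agent.L.Pivot.H76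

/-- FROB-T at all squarefree levels, all odd `p`: DONE. -/
theorem stmt_FrobToricGen_done : Stmt_FrobToricGen :=
  frobToricGen_of Fermat.Agent.S43.H91.stmt_ModSSDW_tame Fermat.Agent.S38.H13.stmt_FrobDescGen

/-- OLD at all squarefree levels, all odd `p`: DONE. -/
theorem stmt_OldGen_done : Stmt_OldGen :=
  oldGen_of Fermat.Agent.S43.Old.H35.stmt_OldRed Fermat.Agent.RED.H78.stmt_HRcore

/-- **S38 from the open packages (version 3).**  The conclusion is the frozen statement S38. -/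
theorem result_of_open3 (h39 : Fermat.Agent.S59.LL.Stmt_S39)
    (hC3 : Fermat.Agent.S38.P3.Stmt_CompEis3S)
    (hPV : Fermat.Agent.S38.P3.Stmt_PivotWCoreAll)
    (hSO : Fermat.Agent.S38.P3.Stmt_PivotWCoreSOAll)
    (p : ℕ) [Fact p.Prime] (_hp2 : p ≠ 2) (W : WeierstrassCurve ℤ) (_hΔ : W.Δ ≠ 0)
    (_hW : W.IsSemistableModel)
    (hcard₁ : Nat.card (Submodule.torsionBy ℤ
      ((W.map (Int.castRingHom ℚ))⁄(AlgebraicClosure ℚ)).Point p) = p ^ 2)
    (hker : GaloisFactorsThroughFiniteLevel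
      (WeierstrassCurve.Affine.Point.galoisRepModuleEnd (K := AlgebraicClosure ℚ) ℚ
        (W.map (Int.castRingHom ℚ)) p))
    (_hirr : W.ModRepIsIrreducible p) (M q : ℕ) (hq : q.Prime) (hqp : q ≠ p)
    (hqM : q ∣ M) (hq2 : ¬ q ^ 2 ∣ M) (hM : Squarefree M)
    (hunr : ((W.map (Int.castRingHom ℚ)).residualGaloisRepOf p hcard₁ hker).IsUnramifiedAt q)
    (hres : W.IsResiduallyModularOfLevel p M) :
    W.IsResiduallyModularOfLevel p (M / q) :=
  s38_of_wire3 h39 stmt_FrobToricGen_done Fermat.Agent.S43.CompEis.H60.stmt_CompEis hC3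
    stmt_OldGen_done Fermat.Agent.S38.P3.H57.stmt_Strong hPV hSO p _hp2 W _hΔ _hW hcard₁ hker _hirr M q hq hqp hqM hq2 hM
    hunr hres

/-- **S38 from the open packages (version 3, PIVOT split into `p ≥ 5` and `p = 3`).**  The
conclusion is the frozen statement S38. -/
theorem result_of_open3_split (h39 : Fermat.Agent.S59.LL.Stmt_S39)
    (hC3 : Fermat.Agent.S38.P3.Stmt_CompEis3S)
    (hPV5 : Fermat.Agent.S38.P3.Stmt_PivotWCore5)
    (hSO5 : Fermat.Agent.S38.P3.Stmt_PivotWCoreSO5)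
    (hPV3 : Fermat.Agent.S38.P3.Stmt_PivotWCore3)
    (hSO3 : Fermat.Agent.S38.P3.Stmt_PivotWCoreSO3)
    (p : ℕ) [Fact p.Prime] (_hp2 : p ≠ 2) (W : WeierstrassCurve ℤ) (_hΔ : W.Δ ≠ 0)
    (_hW : W.IsSemistableModel)
    (hcard₁ : Nat.card (Submodule.torsionBy ℤ
      ((W.map (Int.castRingHom ℚ))⁄(AlgebraicClosure ℚ)).Point p) = p ^ 2)
    (hker : GaloisFactorsThroughFiniteLevel
      (WeierstrassCurve.Affine.Point.galoisRepModuleEnd (K := AlgebraicClosure ℚ) ℚ
        (W.map (Int.castRingHom ℚ)) p))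
    (_hirr : W.ModRepIsIrreducible p) (M q : ℕ) (hq : q.Prime) (hqp : q ≠ p)
    (hqM : q ∣ M) (hq2 : ¬ q ^ 2 ∣ M) (hM : Squarefree M)
    (hunr : ((W.map (Int.castRingHom ℚ)).residualGaloisRepOf p hcard₁ hker).IsUnramifiedAt q)
    (hres : W.IsResiduallyModularOfLevel p M) :
    W.IsResiduallyModularOfLevel p (M / q) :=
  result_of_open3 h39 hC3 (Fermat.Agent.S38.P3.pivotWCoreAll_of hPV5 hPV3)
    (Fermat.Agent.S38.P3.pivotWCoreSOAll_of hSO5 hSO3) p _hp2 W _hΔ _hW hcard₁ hker _hirr M q hq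
    hqp hqM hq2 hM hunr hres

end Fermat.Agent.S38.H37
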