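/-
helper93, S38-WIRE4: the frozen S38 WITHOUT the frozen S39.

The induction on the level of helper75 / helper37 (`S38.H37.lower_to_prime_to_q'`) removes `p`
from the level only for a SEMISTABLE curve at a SQUAREFREE level, when `E[p]` is peu ramifiée
at `p`: this is `S39.H93.Stmt_S39sf`, which is proved for every odd `p` (`p = 3` included) in
`S39/H93_Done.lean`.  (At `p = 3` the frozen S39 itself is obtained from S38, so the frozen S39
must not be an input of S38.)

* `lower_to_prime_to_q4`, `s38_of_s39sf` : the proofs of `H37.lower_to_prime_to_q'` and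
  `H37.s38_of_nonExcW`, with `Stmt_S39sf` in place of the frozen S39;
* `s38_of_pivot : P3.Stmt_PivotWCoreAll → P3.Stmt_PivotWCoreSOAll → S59.LL.Stmt_S38`
  (everything else is plugged in);
* `result_of_pivot` : the same with the frozen statement S38 as the conclusion;
* `llec_of_pivot : S59.LL.Stmt_SQ → P3.Stmt_PivotWCoreAll → P3.Stmt_PivotWCoreSOAll →
  S59.LL.Stmt_LLec`.
-/
import Fermat.Agent.S38.H37_Final3
import Fermat.Agent.S39.H93_Done

set_option autoImplicit false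
set_option linter.style.haveILetI false
set_option linter.unusedSectionVars false
set_option synthInstance.maxHeartbeats 400000
set_option maxHeartbeats 1000000

noncomputable section

open AlgebraicCurve ModularCurve
open WeierstrassCurve WeierstrassCurve.Affine WeierstrassCurve.Affine.Point
open scoped WeierstrassCurve.Affine

namespace Fermat.Agent.S38.H93

open Fermat.Agent.BAD Fermat.Agent.S44 Fermat.Agent.L Fermat.Agent.S43 Fermat.Agent.S43.BadQ
open Fermat.Agent.S38 Fermat.Agent.L.Pivot.H76 Fermat.Agent.S38.H75 Fermat.Agent.S38.H37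

/-- **Lowering to a level prime to `q`** (induction on the level; the proof of
`H37.lower_to_prime_to_q'`, with S39 for semistable curves at squarefree levels). -/
theorem lower_to_prime_to_q4 (h39 : Fermat.Agent.S39.H93.Stmt_S39sf) (hB : Stmt_NonExcW)
    (hPV : Fermat.Agent.S38.P3.Stmt_PivotWCoreAll)
    (hSO : Fermat.Agent.S38.P3.Stmt_PivotWCoreSOAll)
    (p : ℕ) (hp : p.Prime) (hp2 : p ≠ 2) (W : WeierstrassCurve ℤ) (hΔ : W.Δ ≠ 0)
    (hW : W.IsSemistableModel) (hirr : W.ModRepIsIrreducible p)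
    (q : ℕ) (hq : q.Prime) (hqp : q ≠ p) (hunr : UnrW W p q) :
    ∀ n : ℕ, ∀ N : ℕ, N ≤ n → Squarefree N → W.IsResiduallyModularOfLevel p N →
      ∃ N' : ℕ, N' ∣ N ∧ ¬ q ∣ N' ∧ W.IsResiduallyModularOfLevel p N' := by
  intro n
  induction n with
  | zero =>
    intro N hN hsq _
    exact absurd (Nat.le_zero.mp hN) hsq.ne_zero
  | succ n ih =>
    intro N hNle hsq hres
    have hNpos : 0 < N := Nat.pos_of_ne_zero hsq.ne_zero
    by_cases hqN : q ∣ N
    swap
    · exact ⟨N, dvd_rfl, hqN, hres⟩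
    -- a smaller level suffices
    have step : ∀ r : ℕ, r.Prime → r ∣ N → W.IsResiduallyModularOfLevel p (N / r) →
        ∃ N' : ℕ, N' ∣ N ∧ ¬ q ∣ N' ∧ W.IsResiduallyModularOfLevel p N' := by
      intro r hr hrN hM
      have hdvd : N / r ∣ N := Nat.div_dvd_of_dvd hrN
      have hlt : N / r < N := Nat.div_lt_self hNpos hr.one_lt
      obtain ⟨N', hN'M, hqN', hN'⟩ := ih (N / r) (by omega) (hsq.squarefree_of_dvd hdvd) hM
      exact ⟨N', hN'M.trans hdvd, hqN', hN'⟩
    -- the conclusion of the core at a prime `r` gives the level `N / r`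
    have ofLC : ∀ r : ℕ, r.Prime → r ∣ N → LowerConcl p N r W →
        W.IsResiduallyModularOfLevel p (N / r) := fun r hr hrN h =>
      isResiduallyModular_of_lowerConcl Fermat.Agent.S38.H49.stmt_Complete p hp W hΔ N r hsq hr
        hrN h
    obtain ⟨f, 𝔪, hf, h𝔪, hp𝔪, hcong⟩ := hres
    have hres' : W.IsResiduallyModularOfLevel p N := ⟨f, 𝔪, hf, h𝔪, hp𝔪, hcong⟩
    by_cases hpeu : p ∣ N ∧ (W.map (Int.castRingHom ℚ)).IsPeuRamifieeAt p p
    · -- remove `p`
      obtain ⟨hpN, hfin⟩ := hpeu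
      exact step p hp hpN (h39 p hp hp2 W hΔ hW hirr hfin N hsq hpN hres')
    · by_cases hall : ∀ q' : ℕ, q'.Prime → q' ≠ p → q' ∣ N → UnrW W p q' → IsExcW W p q'
      · -- PIVOT
        have hLC : LowerConcl p N q W := by
          by_cases hpN : p ∣ N
          · have hnpeu : ¬ (W.map (Int.castRingHom ℚ)).IsPeuRamifieeAt p p :=
              fun h => hpeu ⟨hpN, h⟩
            have hpΔ : (p : ℤ) ∣ W.Δ := by
              by_contra h
              exact hnpeu (isPeuRamifieeAt_of_not_dvd W p h)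
            exact hSO p hp hp2 W hΔ hW hirr N q hsq hpN hpΔ hnpeu hq hqp hqN hunr hall f 𝔪 ∅
              hf h𝔪 hp𝔪 (fun ℓ hℓ _ hg hℓN hℓp => hcong ℓ hℓ hg hℓN hℓp)
          · exact hPV p hp hp2 W hΔ hW hirr N q hsq hpN hq hqN hunr
              (fun q' hq' hq'N hu => hall q' hq' (fun h => hpN (h ▸ hq'N)) hq'N hu) f 𝔪 ∅
              hf h𝔪 hp𝔪 (fun ℓ hℓ _ hg hℓN hℓp => hcong ℓ hℓ hg hℓN hℓp)
        refine ⟨N / q, Nat.div_dvd_of_dvd hqN, ?_, ofLC q hq hqN hLC⟩
        intro hqq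
        obtain ⟨k, hk⟩ := hqq
        have h2 : q * q ∣ N := by
          have h3 : N = q * (N / q) := (Nat.mul_div_cancel' hqN).symm
          rw [h3, hk]
          exact ⟨k, by ring⟩
        exact hq.not_isUnit (hsq q h2)
      · -- Mazur's principle at a prime which is not exceptional
        push Not at hall
        obtain ⟨q', hq', hq'p, hq'N, hu', hne⟩ := hall
        exact step q' hq' hq'N (ofLC q' hq' hq'N
          (hB p hp hp2 W hΔ hW hirr N q' hsq hq' hq'p hq'N hu' hne f 𝔪 hf h𝔪 hp𝔪 hcong))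

/-- **S38 from S39 for semistable curves at squarefree levels, the Mazur step and the two PIVOT
cores.** -/
theorem s38_of_s39sf (h39 : Fermat.Agent.S39.H93.Stmt_S39sf) (hB : Stmt_NonExcW)
    (hPV : Fermat.Agent.S38.P3.Stmt_PivotWCoreAll)
    (hSO : Fermat.Agent.S38.P3.Stmt_PivotWCoreSOAll) : Fermat.Agent.S59.LL.Stmt_S38 := by
  intro p hpF hp2 W hΔ hW hcard₁ hker hirr M q hq hqp hqM hq2 hM hunr hres
  have hp : p.Prime := hpF.out
  have hunr' : UnrW W p q := by
    intro A hA σ hσ v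
    have h1 := hunr A hA σ hσ
    have h2 : galoisRepModuleEnd (S := ℚ) (K := AlgebraicClosure ℚ)
        (W.map (Int.castRingHom ℚ)).toAffine p σ = 1 := h1
    rw [h2]
    rfl
  obtain ⟨N', hN'M, hqN', hN'⟩ := lower_to_prime_to_q4 h39 hB hPV hSO p hp hp2 W hΔ hW hirr q hq
    hqp hunr' M M le_rfl hM hres
  have hMq : M / q ∣ M := Nat.div_dvd_of_dvd hqM
  have hdvd : N' ∣ M / q := by
    have h3 : M = q * (M / q) := (Nat.mul_div_cancel' hqM).symm
    rw [h3] at hN'M
    exact (Nat.Coprime.dvd_mul_left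
      ((Nat.Prime.coprime_iff_not_dvd hq).2 hqN').symm).1 hN'M
  exact raise_level W p (hM.squarefree_of_dvd hMq) hdvd hN'

/-- **S38 from the two PIVOT cores** (every odd `p`); everything else is proved. -/
theorem s38_of_pivot (hPV : Fermat.Agent.S38.P3.Stmt_PivotWCoreAll)
    (hSO : Fermat.Agent.S38.P3.Stmt_PivotWCoreSOAll) : Fermat.Agent.S59.LL.Stmt_S38 :=
  s38_of_s39sf Fermat.Agent.S39.H93.stmt_S39sf Fermat.Agent.S39.H93.stmt_NonExcW hPV hSO

/-- **The frozen statement S38 from the two PIVOT cores.** -/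
theorem result_of_pivot (hPV : Fermat.Agent.S38.P3.Stmt_PivotWCoreAll)
    (hSO : Fermat.Agent.S38.P3.Stmt_PivotWCoreSOAll)
    (p : ℕ) [Fact p.Prime] (_hp2 : p ≠ 2) (W : WeierstrassCurve ℤ) (_hΔ : W.Δ ≠ 0)
    (_hW : W.IsSemistableModel)
    (hcard₁ : Nat.card (Submodule.torsionBy ℤ
      ((W.map (Int.castRingHom ℚ))⁄(AlgebraicClosure ℚ)).Point p) = p ^ 2)
    (hker : GaloisFactorsThroughFiniteLevel
      (WeierstrassCurve.Affine.Point.galoisRepModuleEnd (K := AlgebraicClosure ℚ) ℚ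
        (W.map (Int.castRingHom ℚ)) p))
    (_hirr : W.ModRepIsIrreducible p) (M q : ℕ) (hq : q.Prime) (hqp : q ≠ p)
    (hqM : q ∣ M) (hq2 : ¬ q ^ 2 ∣ M) (hM : Squarefree M)
    (hunr : ((W.map (Int.castRingHom ℚ)).residualGaloisRepOf p hcard₁ hker).IsUnramifiedAt q)
    (hres : W.IsResiduallyModularOfLevel p M) :
    W.IsResiduallyModularOfLevel p (M / q) :=
  s38_of_pivot hPV hSO p _hp2 W _hΔ _hW hcard₁ hker _hirr M q hq hqp hqM hq2 hM hunr hres

/-- **The frozen statement S38 from the four PIVOT cores** (`p ≥ 5` and `p = 3`). -/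
theorem result_of_pivot_split
    (hPV5 : Fermat.Agent.S38.P3.Stmt_PivotWCore5)
    (hSO5 : Fermat.Agent.S38.P3.Stmt_PivotWCoreSO5)
    (hPV3 : Fermat.Agent.S38.P3.Stmt_PivotWCore3)
    (hSO3 : Fermat.Agent.S38.P3.Stmt_PivotWCoreSO3)
    (p : ℕ) [Fact p.Prime] (_hp2 : p ≠ 2) (W : WeierstrassCurve ℤ) (_hΔ : W.Δ ≠ 0)
    (_hW : W.IsSemistableModel)
    (hcard₁ : Nat.card (Submodule.torsionBy ℤ
      ((W.map (Int.castRingHom ℚ))⁄(AlgebraicClosure ℚ)).Point p) = p ^ 2)
    (hker : GaloisFactorsThroughFiniteLevel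
      (WeierstrassCurve.Affine.Point.galoisRepModuleEnd (K := AlgebraicClosure ℚ) ℚ
        (W.map (Int.castRingHom ℚ)) p))
    (_hirr : W.ModRepIsIrreducible p) (M q : ℕ) (hq : q.Prime) (hqp : q ≠ p)
    (hqM : q ∣ M) (hq2 : ¬ q ^ 2 ∣ M) (hM : Squarefree M)
    (hunr : ((W.map (Int.castRingHom ℚ)).residualGaloisRepOf p hcard₁ hker).IsUnramifiedAt q)
    (hres : W.IsResiduallyModularOfLevel p M) :
    W.IsResiduallyModularOfLevel p (M / q) :=
  result_of_pivot (Fermat.Agent.S38.P3.pivotWCoreAll_of hPV5 hPV3)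
    (Fermat.Agent.S38.P3.pivotWCoreSOAll_of hSO5 hSO3) p _hp2 W _hΔ _hW hcard₁ hker _hirr M q hq
    hqp hqM hq2 hM hunr hres

/-- **LL for semistable curves from SQUARE removal and the two PIVOT cores.** -/
theorem llec_of_pivot (hSQ : Fermat.Agent.S59.LL.Stmt_SQ)
    (hPV : Fermat.Agent.S38.P3.Stmt_PivotWCoreAll)
    (hSO : Fermat.Agent.S38.P3.Stmt_PivotWCoreSOAll) : Fermat.Agent.S59.LL.Stmt_LLec :=
  Fermat.Agent.S59.LL.H40.llec_of_ss hSQ (s38_of_pivot hPV hSO) Fermat.Agent.S39.H93.stmt_S39ss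

end Fermat.Agent.S38.H93
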