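/-
S38 (row 37, general form), the current state of the wiring, version 5 (helper37).

helper93's S38-WIRE4 (`S38/H93_Wire4.lean`) proves the frozen statement S38 from the PIVOT
statements in curve form alone (S39 for semistable curves, the Mazur step and COMP-EIS at `p = 3`
are proved).  PIVOT for `p ≥ 5` in curve form comes from the PIVOT core
(`L.Pivot.Stmt_PivotCoreB`) by PV-WIRE2 (helper76: `H76.pivotWCore_of_pivotCoreB`,
`H76.pivotWCoreSO_of_pivotCoreB`) and TRES (`S59.TRes.H49.stmt_TRES`, helper49).  So the frozen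
statement S38 follows from

* `L.Pivot.Stmt_PivotCoreB` : the PIVOT core, `p ≥ 5` (S36 + PV-GEOM; `S43/Final5.lean`);
* `P3.Stmt_PivotWCore3`, `P3.Stmt_PivotWCoreSO3` : PIVOT, curve form, `p = 3` (helper75,
  `L/Pivot3`).
-/
import Fermat.Agent.S38.H93_Wire4
import Fermat.Agent.L.Pivot.H76_Wire2SOFinal
import Fermat.Agent.S59.TRes.H49_TRES

set_option autoImplicit false

open WeierstrassCurve WeierstrassCurve.Affine WeierstrassCurve.Affine.Point
open scoped WeierstrassCurve.Affine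

namespace Fermat.Agent.S38.H37

/-- PIVOT, curve form, level prime to `p`, `p ≥ 5`, from the PIVOT core. -/
theorem pivotWCore5_of_pivotCoreB (hPC : Fermat.Agent.L.Pivot.Stmt_PivotCoreB) :
    Fermat.Agent.S38.P3.Stmt_PivotWCore5 :=
  Fermat.Agent.L.Pivot.H76.pivotWCore_of_pivotCoreB hPC

/-- PIVOT, curve form, `p ∥ N`, `p ≥ 5`, from the PIVOT core. -/
theorem pivotWCoreSO5_of_pivotCoreB (hPC : Fermat.Agent.L.Pivot.Stmt_PivotCoreB) :
    Fermat.Agent.S38.P3.Stmt_PivotWCoreSO5 :=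
  Fermat.Agent.L.Pivot.H76.pivotWCoreSO_of_pivotCoreB Fermat.Agent.S59.TRes.H49.stmt_TRES hPC

/-- **S38 from the PIVOT core and PIVOT at `p = 3` (version 5).**  The conclusion is the frozen
statement S38. -/
theorem result_of_open5 (hPC : Fermat.Agent.L.Pivot.Stmt_PivotCoreB)
    (hPV3 : Fermat.Agent.S38.P3.Stmt_PivotWCore3)
    (hSO3 : Fermat.Agent.S38.P3.Stmt_PivotWCoreSO3)
    (p : ℕ) [Fact p.Prime] (_hp2 : p ≠ 2) (W : WeierstrassCurve ℤ) (_hΔ : W.Δ ≠ 0)
    (_hW : W.IsSemistableModel)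
    (hcard₁ : Nat.card (Submodule.torsionBy ℤ
      ((W.map (Int.castRingHom ℚ))⁄(AlgebraicClosure ℚ)).Point p) = p ^ 2)
    (hker : GaloisFactorsThroughFiniteLevel
      (WeierstrassCurve.Affine.Point.galoisRepModuleEnd (K := AlgebraicClosure ℚ) ℚ
        (W.map (Int.castRingHom ℚ)) p))
    (_hirr : W.ModRepIsIrreducible p) (M q : ℕ) (hq : q.Prime) (hqp : q ≠ p)
    (hqM : q ∣ M) (hq2 : ¬ q ^ 2 ∣ M) (hM : Squarefree M)
    (hunr : ((W.map (Int.castRingHom ℚ)).residualGaloisRepOf p hcard₁ hker).IsUnramifiedAt q)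
    (hres : W.IsResiduallyModularOfLevel p M) :
    W.IsResiduallyModularOfLevel p (M / q) :=
  Fermat.Agent.S38.H93.result_of_pivot_split (pivotWCore5_of_pivotCoreB hPC)
    (pivotWCoreSO5_of_pivotCoreB hPC) hPV3 hSO3
    p _hp2 W _hΔ _hW hcard₁ hker _hirr M q hq hqp hqM hq2 hM hunr hres

end Fermat.Agent.S38.H37
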