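/-
helper93, S38 (general form, every odd `p`) and LL from the two PIVOT cores.

Everything but the Hecke-Galois cores of PIVOT is plugged in:

* `s38_of_cores : L.Pivot.Stmt_PivotCoreB → L.Pivot3.Stmt_PivotCoreBA → S59.LL.Stmt_S38`
  (`p ≥ 5`: `H76.pivotWCore_of_pivotCoreB`, `H76.pivotWCoreSO_of_pivotCoreB` (helper76);
   `p = 3`: `Pivot3.H13.pivotGalAux_of` (helper13), `Pivot3.H80.pivotWCoreAux3_of` (helper80),
   `Pivot3.H34.pivotWCoreSOAux3_of` (helper34), `Pivot3.H75.pivotWCore3_of_aux`,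
   `pivotWCoreSO3_of_aux` (helper75); CYC (helper3), THETAMIN (helper92), EXACTb (helper80),
   TRES (helper49); the Mazur step `S39.H93.stmt_NonExcW`; S39 for semistable curves at squarefree
   levels `S39.H93.stmt_S39sf`);
* `result_of_cores` : the same with the frozen statement S38 as the conclusion;
* `llec0At_of_cores : SqNewTameAt p → SqNewTwoAt p → Stmt_PivotCoreB → Stmt_PivotCoreBA →
  LLec0At p` (the form of LL which S59 consumes at `p = 3, 5`).
-/
import Fermat.Agent.S38.H93_Wire4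
import Fermat.Agent.L.Pivot.H76_Wire2SOFinal
import Fermat.Agent.L.Pivot3.H75_Top
import Fermat.Agent.L.Pivot3.H13_GAux
import Fermat.Agent.L.Pivot3.H80_WAux
import Fermat.Agent.L.Pivot3.H34_WSOAux
import Fermat.Agent.S59.TRes.H49_TRES
import Fermat.Agent.S59.LL.H40_LLec0

set_option autoImplicit false

noncomputable section

open WeierstrassCurve WeierstrassCurve.Affine WeierstrassCurve.Affine.Point
open scoped WeierstrassCurve.Affine

namespace Fermat.Agent.S38.H93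

/-- PIVOT, Galois form with auxiliary primes, from the core. -/
theorem pivotGalAux_of_core (hPCA : Fermat.Agent.L.Pivot3.Stmt_PivotCoreBA) :
    Fermat.Agent.L.Pivot3.H75.Stmt_PivotGalAux :=
  Fermat.Agent.L.Pivot3.H13.pivotGalAux_of Fermat.Agent.S59.Asm.H92.stmt_THETAMIN
    Fermat.Agent.S59.Asm.H80.stmt_EXACTb hPCA

/-- **PIVOT, curve form, level prime to `p`, every odd `p`**, from the two cores. -/
theorem pivotWCoreAll_of_cores (hPC : Fermat.Agent.L.Pivot.Stmt_PivotCoreB)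
    (hPCA : Fermat.Agent.L.Pivot3.Stmt_PivotCoreBA) :
    Fermat.Agent.S38.P3.Stmt_PivotWCoreAll :=
  Fermat.Agent.S38.P3.pivotWCoreAll_of
    (Fermat.Agent.L.Pivot.H76.pivotWCore_of_pivotCoreB hPC)
    (Fermat.Agent.L.Pivot3.H75.pivotWCore3_of_aux
      (Fermat.Agent.L.Pivot3.H80.pivotWCoreAux3_of Fermat.Agent.L.Pivot.H3.stmt_CYC
        (pivotGalAux_of_core hPCA))
      Fermat.Agent.S39.H93.stmt_NonExcW)

/-- **PIVOT, curve form, `p ∥ N` and `E[p]` très ramifiée, every odd `p`**, from the two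
cores. -/
theorem pivotWCoreSOAll_of_cores (hPC : Fermat.Agent.L.Pivot.Stmt_PivotCoreB)
    (hPCA : Fermat.Agent.L.Pivot3.Stmt_PivotCoreBA) :
    Fermat.Agent.S38.P3.Stmt_PivotWCoreSOAll :=
  Fermat.Agent.S38.P3.pivotWCoreSOAll_of
    (Fermat.Agent.L.Pivot.H76.pivotWCoreSO_of_pivotCoreB Fermat.Agent.S59.TRes.H49.stmt_TRES hPC)
    (Fermat.Agent.L.Pivot3.H75.pivotWCoreSO3_of_aux
      (Fermat.Agent.L.Pivot3.H34.pivotWCoreSOAux3_of Fermat.Agent.L.Pivot.H3.stmt_CYC
        Fermat.Agent.S59.TRes.H49.stmt_TRES (pivotGalAux_of_core hPCA))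
      Fermat.Agent.S39.H93.stmt_NonExcW)

/-- **S38 (general form, every odd `p`) from the two PIVOT cores.** -/
theorem s38_of_cores (hPC : Fermat.Agent.L.Pivot.Stmt_PivotCoreB)
    (hPCA : Fermat.Agent.L.Pivot3.Stmt_PivotCoreBA) : Fermat.Agent.S59.LL.Stmt_S38 :=
  s38_of_pivot (pivotWCoreAll_of_cores hPC hPCA) (pivotWCoreSOAll_of_cores hPC hPCA)

/-- **The frozen statement S38 from the two PIVOT cores.** -/
theorem result_of_cores (hPC : Fermat.Agent.L.Pivot.Stmt_PivotCoreB)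
    (hPCA : Fermat.Agent.L.Pivot3.Stmt_PivotCoreBA)
    (p : ℕ) [Fact p.Prime] (_hp2 : p ≠ 2) (W : WeierstrassCurve ℤ) (_hΔ : W.Δ ≠ 0)
    (_hW : W.IsSemistableModel)
    (hcard₁ : Nat.card (Submodule.torsionBy ℤ
      ((W.map (Int.castRingHom ℚ))⁄(AlgebraicClosure ℚ)).Point p) = p ^ 2)
    (hker : GaloisFactorsThroughFiniteLevel
      (WeierstrassCurve.Affine.Point.galoisRepModuleEnd (K := AlgebraicClosure ℚ) ℚ
        (W.map (Int.castRingHom ℚ)) p))
    (_hirr : W.ModRepIsIrreducible p) (M q : ℕ) (hq : q.Prime) (hqp : q ≠ p)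
    (hqM : q ∣ M) (hq2 : ¬ q ^ 2 ∣ M) (hM : Squarefree M)
    (hunr : ((W.map (Int.castRingHom ℚ)).residualGaloisRepOf p hcard₁ hker).IsUnramifiedAt q)
    (hres : W.IsResiduallyModularOfLevel p M) :
    W.IsResiduallyModularOfLevel p (M / q) :=
  s38_of_cores hPC hPCA p _hp2 W _hΔ _hW hcard₁ hker _hirr M q hq hqp hqM hq2 hM hunr hres

/-- **LL at `p`** (the form which S59 consumes) from SQ at `p` and the two PIVOT cores. -/
theorem llec0At_of_cores (p : ℕ) (hT : Fermat.Agent.S59.LL.H40.SqNewTameAt p)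
    (h2 : Fermat.Agent.S59.LL.H40.SqNewTwoAt p)
    (hPC : Fermat.Agent.L.Pivot.Stmt_PivotCoreB)
    (hPCA : Fermat.Agent.L.Pivot3.Stmt_PivotCoreBA) : Fermat.Agent.S59.LL.H40.LLec0At p :=
  Fermat.Agent.S59.LL.H40.llec0_at p hT h2 (s38_of_cores hPC hPCA)
    Fermat.Agent.S39.H93.stmt_S39ss

end Fermat.Agent.S38.H93
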